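import Fermat.Agent.Reduction.LocalTorsion
import Fermat.Agent.Reduction.Inertia

/-!
# Torsion points outside `E₀` when `p ∣ v(Δ)`

At a multiplicative odd prime `p` with `p ∣ v_p(Δ)`, a `p`-torsion point outside `E₀` lies at a
distance from the node which is an integral power of `|p|`, constant on cosets of `E₀`, and
translation by `± Q`, `Q ∈ E₁`, moves it by exactly the predicted amount.
-/

set_option autoImplicit false

noncomputable section

namespace FLTAgent.Reduction.Peu

open WeierstrassCurve IsLocalRing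

variable {A : ValuationSubring Qbar} {p : ℕ} {W : WeierstrassCurve ℤ} {x₀ y₀ α r : Qbar}
  (hn : IsNode A (WQbar W) x₀ y₀ α) (h : IsNodalForm A (nodeChange x₀ y₀ • WQbar W) α r)

/-- The component of a point of `W`. -/
def compW (P : (WQbar W).toAffine.Point) : h.CompGroup :=
  h.comp (vcEquiv (nodeChange x₀ y₀) (WQbar W) P)

lemma compW_add (P Q : (WQbar W).toAffine.Point) : compW h (P + Q) = compW h P * compW h Q := by
  rw [compW, map_add, h.comp_add]; rfl

include hn in
lemma compW_eq_one_iff {P : (WQbar W).toAffine.Point} :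
    compW h P = 1 ↔ P ∈ zeroSubgroup (integralAt W A) := by
  rw [compW, h.comp_eq_one_iff]
  exact hn.inZero_vc_iff (integralAt W A) h.integral P

include hn in
lemma compW_congr {P Q : (WQbar W).toAffine.Point}
    (hPQ : P - Q ∈ zeroSubgroup (integralAt W A)) : compW h P = compW h Q := by
  rw [← sub_add_cancel P Q, compW_add, (compW_eq_one_iff hn h).2 hPQ, one_mul]

lemma compW_pow_eq_one {P : (WQbar W).toAffine.Point} (hP : p • P = 0) : compW h P ^ p = 1 :=
  comp_pow_eq_one h (by rw [← map_nsmul, hP, map_zero])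

include hn in
/-- A point outside `E₀` whose component is killed by an odd number is near the node, away from
the middle, and its component is given by its distance to the node. -/
theorem exists_outside (hodd : Odd p) {R : (WQbar W).toAffine.Point} (hR : p • R = 0)
    (hR0 : R ∉ zeroSubgroup (integralAt W A)) :
    ∃ (x y : Qbar) (hxy : (WQbar W).toAffine.Nonsingular x y), R = .some _ _ hxy ∧
      A.valuation r < A.valuation (x - x₀) ∧ A.valuation (x - x₀) < 1 ∧
      (compW h R = h.cls (A.valuation (x - x₀)) ∨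
        compW h R = (h.cls (A.valuation (x - x₀)))⁻¹) := by
  rcases R with _ | ⟨x, y, hxy⟩
  · exact absurd (zero_mem _) hR0
  refine ⟨x, y, hxy, rfl, ?_⟩
  have hc := compW_pow_eq_one h hR
  have h1 : compW h (Affine.Point.some x y hxy) ≠ 1 := fun h1 => hR0 ((compW_eq_one_iff hn h).1 h1)
  have heq : compW h (Affine.Point.some x y hxy) = h.compCoord (x - x₀) (y - y₀) := by
    rw [compW, vcEquiv_some, h.comp_some, vcX_node, vcY_node]
  rw [heq] at hc h1 ⊢
  have hlt : A.valuation (x - x₀) < 1 := by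
    by_contra hle
    exact h1 (h.compCoord_out _ (not_lt.1 hle))
  have hgt : A.valuation r < A.valuation (x - x₀) := by
    by_contra hle
    rw [h.compCoord_middle _ (not_lt.1 hle)] at hc h1
    obtain ⟨m, rfl⟩ := hodd
    apply h1
    have h2 : h.cls (A.valuation r) ^ 2 = 1 := by
      rw [pow_two]
      nth_rewrite 1 [← h.cls_r_inv]
      exact inv_mul_cancel _
    rwa [pow_succ, pow_mul, h2, one_pow, one_mul] at hc
  refine ⟨hgt, hlt, ?_⟩
  by_cases hf : A.valuation (fCoord α (x - x₀) (y - y₀)) < A.valuation (x - x₀)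
  · exact Or.inl (h.compCoord_first hgt hlt hf)
  · right
    rw [IsNodalForm.compCoord, if_pos hlt, if_neg (not_le.2 hgt), if_neg hf]

lemma eq_of_cls {g g' : A.ValueGroup} (hg : A.valuation r < g) (hg1 : g < 1)
    (hg' : A.valuation r < g') (hg'1 : g' < 1)
    (he : h.cls g = h.cls g' ∨ h.cls g = (h.cls g')⁻¹) : g = g' := by
  have h0 : g ≠ 0 := (h.r_pos.trans hg).ne'
  have h0' : g' ≠ 0 := (h.r_pos.trans hg').ne'
  have hne : ∀ {a b : A.ValueGroup}, A.valuation r < a → a < 1 → A.valuation r < b → b < 1 →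
      h.cls a = h.cls b → a ≤ b := by
    intro a b ha ha1 hb hb1 hab
    by_contra hba
    rw [not_le] at hba
    have ha0 : a ≠ 0 := (h.r_pos.trans ha).ne'
    have hb0 : b ≠ 0 := (h.r_pos.trans hb).ne'
    have h1 : h.cls (b / a) = 1 := by
      have hm := h.cls_mul (div_ne_zero hb0 ha0) ha0
      rw [div_mul_cancel₀ _ ha0, hab] at hm
      exact (mul_eq_right.1 hm.symm)
    refine h.cls_ne_one ?_ ?_ h1
    · exact hb.le.trans ((le_div_iff₀ (zero_lt_iff.2 ha0)).2 (mul_le_of_le_one_right' ha1.le))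
    · exact (div_lt_one₀ (zero_lt_iff.2 ha0)).2 hba
  rcases he with he | he
  · exact le_antisymm (hne hg hg1 hg' hg'1 he) (hne hg' hg'1 hg hg1 he.symm)
  · exfalso
    have hm : h.cls (g * g') = 1 := by rw [h.cls_mul h0 h0', he, inv_mul_cancel]
    rcases le_or_gt (A.valuation r) (g * g') with hle | hlt
    · exact h.cls_ne_one hle ((mul_lt_of_lt_one_right (zero_lt_iff.2 h0) hg'1).trans hg1) hm
    · -- the product lies strictly between `r ^ 2` and `r`
      refine h.cls_ne_one (g := A.valuation r ^ 2 / (g * g') ) ?_ ?_ ?_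
      · rw [le_div_iff₀ (zero_lt_iff.2 (mul_ne_zero h0 h0')), pow_two]
        exact mul_le_mul' le_rfl hlt.le
      · rw [div_lt_one₀ (zero_lt_iff.2 (mul_ne_zero h0 h0')), pow_two]
        exact mul_lt_mul'' hg hg' zero_le zero_le
      · have hr2 : A.valuation r ^ 2 ≠ 0 := pow_ne_zero 2 h.rUnit_ne_zero
        have := h.cls_mul (div_ne_zero hr2 (mul_ne_zero h0 h0')) (mul_ne_zero h0 h0')
        rw [div_mul_cancel₀ _ (mul_ne_zero h0 h0'), h.cls_sq_r, hm, mul_one] at this
        exact this.symm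

include hn h in
/-- The distance to the node is constant on cosets of `E₀`. -/
theorem valuation_congr (hodd : Odd p) {R R' : (WQbar W).toAffine.Point} (hR : p • R = 0)
    (hR' : p • R' = 0) (hR0 : R ∉ zeroSubgroup (integralAt W A))
    (hRR' : R' - R ∈ zeroSubgroup (integralAt W A)) {x y x' y' : Qbar}
    {hxy : (WQbar W).toAffine.Nonsingular x y} {hxy' : (WQbar W).toAffine.Nonsingular x' y'}
    (he : R = .some _ _ hxy) (he' : R' = .some _ _ hxy') :
    A.valuation (x' - x₀) = A.valuation (x - x₀) := by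
  have hR'0 : R' ∉ zeroSubgroup (integralAt W A) := fun h' =>
    hR0 (sub_sub_cancel R' R ▸ sub_mem h' hRR')
  obtain ⟨a, b, hab, e, ha, ha1, hc⟩ := exists_outside hn h hodd hR hR0
  obtain ⟨a', b', hab', e', ha', ha'1, hc'⟩ := exists_outside hn h hodd hR' hR'0
  rw [he, Affine.Point.some.injEq] at e
  rw [he', Affine.Point.some.injEq] at e'
  obtain ⟨rfl, rfl⟩ := e
  obtain ⟨rfl, rfl⟩ := e'
  rw [compW_congr hn h hRR'] at hc'
  refine eq_of_cls h ha' ha'1 ha ha1 ?_
  rcases hc with hc | hc <;> rcases hc' with hc' | hc' <;> rw [hc] at hc'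
  · exact Or.inl hc'.symm
  · exact Or.inr (inv_eq_iff_eq_inv.1 hc'.symm)
  · exact Or.inr hc'.symm
  · exact Or.inl (inv_injective hc').symm

include hn h in
/-- The distance to the node is an integral power of `|p|`. -/
theorem exists_valuation_eq_zpow (hA : A.LiesOverPrime p) (hp : p.Prime) (h2 : p ≠ 2)
    (hΔ0 : W.Δ ≠ 0) (hdiv : p ∣ padicValInt p W.Δ) {R : (WQbar W).toAffine.Point}
    (hR : p • R = 0) (hR0 : R ∉ zeroSubgroup (integralAt W A)) {x y : Qbar}
    {hxy : (WQbar W).toAffine.Nonsingular x y} (he : R = .some _ _ hxy) :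
    ∃ n : ℤ, A.valuation (x - x₀) = A.valuation (p : Qbar) ^ n := by
  obtain ⟨a, b, hab, e, ha, ha1, hc⟩ := exists_outside hn h (hp.odd_of_ne_two h2) hR hR0
  rw [he, Affine.Point.some.injEq] at e
  obtain ⟨rfl, rfl⟩ := e
  have hg0 : A.valuation (x - x₀) ≠ 0 := (h.r_pos.trans ha).ne'
  have hpc := compW_pow_eq_one h hR
  have hcp : h.cls (A.valuation (x - x₀)) ^ p = 1 := by
    rcases hc with hc | hc <;> rw [hc] at hpc
    · exact hpc
    · rwa [inv_pow, inv_eq_one] at hpc
  rw [h.cls_mk0 hg0, ← QuotientGroup.mk_pow, QuotientGroup.eq_one_iff,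
    Subgroup.mem_zpowers_iff] at hcp
  obtain ⟨k, hk⟩ := hcp
  obtain ⟨c, hc'⟩ := hdiv
  refine ⟨(c : ℤ) * k, ?_⟩
  have h1 := congrArg Units.val hk
  simp only [IsNodalForm.period, Units.val_zpow_eq_zpow_val, Units.val_pow_eq_pow_val,
    Units.val_mk0] at h1
  have hD : A.valuation r ^ 2 = A.valuation (p : Qbar) ^ padicValInt p W.Δ := by
    rw [← h.v_Δ, variableChange_Δ, nodeChange, inv_one, Units.val_one, one_pow, one_mul,
      WQbar_Δ, v_intCast_eq_pow hA hp hΔ0]
  rw [hD, hc'] at h1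
  refine (pow_left_inj₀ zero_le zero_le hp.ne_zero).1 ?_
  rw [← h1, ← zpow_natCast, ← zpow_natCast (_ ^ ((c : ℤ) * k)), ← zpow_mul, ← zpow_mul]
  push_cast; ring_nf

include hn h in
/-- The exact displacement by `± Q` for `Q ∈ E₁`. -/
theorem v_sq_sub (hA : A.LiesOverPrime p) (hp : p.Prime) (h2 : p ≠ 2)
    {x y X Y : Qbar} {hxy : (WQbar W).toAffine.Nonsingular x y}
    {hXY : (WQbar W).toAffine.Nonsingular X Y} (hr : A.valuation r < A.valuation (x - x₀))
    (hx1 : A.valuation (x - x₀) < 1) (hX : X ∉ A)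
    {x₃ y₃ x₄ y₄ : Qbar} {h₃ : (WQbar W).toAffine.Nonsingular x₃ y₃}
    {h₄ : (WQbar W).toAffine.Nonsingular x₄ y₄}
    (he₃ : Affine.Point.some _ _ hxy + .some _ _ hXY = .some _ _ h₃)
    (he₄ : Affine.Point.some _ _ hxy - .some _ _ hXY = .some _ _ h₄) :
    A.valuation (x₃ - x₄) ^ 2 * A.valuation X = A.valuation (x - x₀) ^ 2 := by
  have hxA : x ∈ A := sub_add_cancel x x₀ ▸ add_mem (mem_of_v_le_one hx1.le) hn.x_mem
  have hne : x ≠ X := fun h' => hX (h' ▸ hxA)
  have hvX : 1 < A.valuation X := one_lt_v_iff.2 hX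
  obtain ⟨hYX, hXY'⟩ := v_y_of_x_not_mem (integralAt W A) hXY.1 hX
  rw [sub_eq_add_neg, Affine.Point.neg_some] at he₄
  rw [Affine.Point.add_of_X_ne hne, Affine.Point.some.injEq] at he₃ he₄
  rw [← he₃.1, ← he₄.1]
  have hid : (WQbar W).toAffine.addX x X ((WQbar W).toAffine.slope x X y Y)
      - (WQbar W).toAffine.addX x X ((WQbar W).toAffine.slope x X y ((WQbar W).toAffine.negY X Y))
      = -((2 * y + (WQbar W).a₁ * x + (WQbar W).a₃) * (2 * Y + ((WQbar W).a₁ * X + (WQbar W).a₃)))
        / (x - X) ^ 2 := by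
    rw [Affine.slope_of_X_ne hne, Affine.slope_of_X_ne hne]
    have : x - X ≠ 0 := sub_ne_zero.2 hne
    simp only [Affine.addX, Affine.negY]
    field_simp
    ring
  have hf : A.valuation (2 * y + (WQbar W).a₁ * x + (WQbar W).a₃) = A.valuation (x - x₀) := by
    have e1 : 2 * y + (WQbar W).a₁ * x + (WQbar W).a₃ = fCoord α (x - x₀) (y - y₀) +
        gCoord (nodeChange x₀ y₀ • WQbar W) α (x - x₀) (y - y₀) := by
      simp only [fCoord, gCoord, variableChange_a₁, nodeChange, inv_one, Units.val_one]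
      linear_combination hn.dy
    have he : (nodeChange x₀ y₀ • WQbar W).toAffine.Equation (x - x₀) (y - y₀) := by
      have h' := (nonsingular_vc (nodeChange x₀ y₀) (WQbar W) x y).2 hxy
      rw [vcX_node, vcY_node] at h'
      exact h'.1
    rw [e1]
    rcases h.branch he hr hx1 with hb | hb
    · rw [A.valuation.map_add_eq_of_lt_right (hb.2.symm ▸ hb.1), hb.2]
    · rw [A.valuation.map_add_eq_of_lt_left (hb.2.symm ▸ hb.1), hb.2]
  have hY : A.valuation (2 * Y + ((WQbar W).a₁ * X + (WQbar W).a₃)) = A.valuation Y := by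
    have h2v := v_intCast_eq_one hA hp (m := ((2 : ℕ) : ℤ)) fun hd =>
      h2 ((Nat.prime_dvd_prime_iff_eq hp Nat.prime_two).1 (Int.natCast_dvd_natCast.1 hd))
    have h22 : A.valuation (2 * Y) = A.valuation Y := by
      rw [Int.cast_natCast, Nat.cast_ofNat] at h2v
      rw [map_mul, h2v, one_mul]
    rw [A.valuation.map_add_eq_of_lt_left, h22]
    rw [h22]
    refine A.valuation.map_add_lt ?_ (lt_of_le_of_lt (v_le_one (integralAt W A).a₃)
      (hvX.trans hXY'))
    rw [map_mul]
    exact lt_of_le_of_lt (mul_le_of_le_one_left' (v_le_one (integralAt W A).a₁)) hXY'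
  have hd : A.valuation (x - X) = A.valuation X := by
    rw [A.valuation.map_sub_eq_of_lt_right (lt_of_le_of_lt (v_le_one hxA) hvX)]
  have hX0 : A.valuation X ≠ 0 := (zero_lt_one.trans hvX).ne'
  rw [hid, map_div₀, A.valuation.map_neg, map_mul, hf, hY, map_pow, hd, div_pow, mul_pow, hYX]
  field_simp

end FLTAgent.Reduction.Peu
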