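import Fermat.Agent.Reduction.Peu.InertiaField
import Fermat.Agent.Reduction.Decomposition
import Mathlib.NumberTheory.LegendreSymbol.AddCharacter
import Mathlib.RingTheory.RootsOfUnity.Lemmas
import Mathlib.Data.ZMod.Basic

/-!
# A Kummer generator from Lagrange resolvents

If `p` units `y k`, permuted by inertia through an affine action, vary as much as `ζ - 1`, then
some unit `x` has Kummer cocycle the translation part of the action: otherwise the resolvents
would have distinct valuations and all variation would be smaller.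
-/

set_option autoImplicit false

noncomputable section

namespace FLTAgent.Reduction.Peu

local notation "Qbar" => AlgebraicClosure ℚ
local notation "Γℚ" => AlgebraicClosure ℚ ≃ₐ[ℚ] AlgebraicClosure ℚ

variable {p : ℕ} [hp : Fact p.Prime] {A : ValuationSubring Qbar} (ε : AddChar (ZMod p) Qbar)

lemma addChar_pow_card (j : ZMod p) : ε j ^ p = 1 := by
  rw [← AddChar.map_nsmul_eq_pow, nsmul_eq_mul, ZMod.natCast_self, zero_mul,
    AddChar.map_zero_eq_one]

variable {ε}

lemma v_addChar (j : ZMod p) : A.valuation (ε j) = 1 :=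
  (pow_eq_one_iff_left hp.out.ne_zero).1
    (by rw [← map_pow, addChar_pow_card, map_one])

lemma addChar_sub_one_le (j : ZMod p) :
    A.valuation (ε j - 1) ≤ A.valuation (ε 1 - 1) := by
  conv_lhs => rw [← ZMod.natCast_zmod_val j, ← nsmul_one j.val, AddChar.map_nsmul_eq_pow]
  generalize j.val = n
  induction n with
  | zero => rw [pow_zero, sub_self, map_zero]; exact zero_le
  | succ n ih =>
    rw [show ε 1 ^ (n + 1) - 1 = ε 1 * (ε 1 ^ n - 1) + (ε 1 - 1) by ring]
    refine (A.valuation.map_add _ _).trans (max_le ?_ le_rfl)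
    rw [map_mul, v_addChar, one_mul]
    exact ih

lemma v_addChar_sub_one {j : ZMod p} (hj : j ≠ 0) :
    A.valuation (ε j - 1) = A.valuation (ε 1 - 1) := by
  refine le_antisymm (addChar_sub_one_le j) ?_
  have h := addChar_sub_one_le (A := A) (ε := ε.mulShift j) j⁻¹
  simpa [AddChar.mulShift_apply, hj] using h

/-- `|ζ - 1| ^ (p - 1) = |p|`. -/
lemma v_addChar_sub_one_pow (hε : ε 1 ≠ 1) :
    A.valuation (ε 1 - 1) ^ (p - 1) = A.valuation (p : Qbar) := by
  have hζ : IsPrimitiveRoot (ε 1) p :=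
    IsPrimitiveRoot.iff_orderOf.2 (orderOf_eq_prime (addChar_pow_card ε 1) hε)
  obtain ⟨n, hn⟩ : ∃ n, p = n + 1 := ⟨p - 1, by have := hp.out.pos; omega⟩
  have h := (hn ▸ hζ : IsPrimitiveRoot (ε 1) (n + 1)).prod_one_sub_pow_eq_order
  rw [show p - 1 = n by omega, show (p : Qbar) = (n : Qbar) + 1 by exact_mod_cast hn, ← h, map_prod]
  conv_rhs => rw [Finset.prod_congr rfl (g := fun _ => A.valuation (ε 1 - 1)) fun k hk => by
    rw [A.valuation.map_sub_swap, ← AddChar.map_nsmul_eq_pow, nsmul_one]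
    refine v_addChar_sub_one ?_
    rw [ne_eq, ZMod.natCast_eq_zero_iff]
    intro hd
    have := Nat.le_of_dvd (by omega) hd
    rw [Finset.mem_range] at hk
    omega]
  rw [Finset.prod_const, Finset.card_range]

/-- The resolvents of `y`. -/
def resolvent (ε : AddChar (ZMod p) Qbar) (y : ZMod p → Qbar) (j : ZMod p) : Qbar :=
  (∑ k, ε (-(j * k)) * y k) / p

lemma sum_resolvent (hε : ε 1 ≠ 1) (y : ZMod p → Qbar) (k : ZMod p) :
    ∑ j, ε (j * k) * resolvent ε y j = y k := by
  have hprim : ε.IsPrimitive :=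
    AddChar.IsPrimitive.of_ne_one fun h => hε (by rw [h, AddChar.one_apply])
  simp only [resolvent, mul_div_assoc', Finset.mul_sum, ← mul_assoc, ← AddChar.map_add_eq_mul]
  rw [← Finset.sum_div, Finset.sum_comm, Finset.sum_eq_single k]
  · simp [Finset.card_univ, ZMod.card, hp.out.ne_zero]
  · intro i _ hi
    rw [← Finset.sum_mul]
    have h := AddChar.sum_mulShift (R' := Qbar) (k - i) hprim
    rw [if_neg (sub_ne_zero.2 (Ne.symm hi))] at h
    rw [show ∑ x, ε (x * k + -(x * i)) = ∑ x, ε (x * (k - i)) from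
      Finset.sum_congr rfl fun x _ => by ring_nf, h, Nat.cast_zero, zero_mul]
  · simp

variable {y : ZMod p → Qbar} {σ : Γℚ} {a c : ZMod p}

lemma map_resolvent (hε : ε 1 ≠ 1) (hσε : ∀ j, σ (ε j) = ε (a * j))
    (hσy : ∀ k, σ (y k) = y (c + a * k)) (j : ZMod p) :
    σ (resolvent ε y j) = ε (j * c) * resolvent ε y j := by
  have ha : a ≠ 0 := fun h0 => hε (σ.injective (by
    rw [hσε, map_one, h0, zero_mul, AddChar.map_zero_eq_one]))
  let e : ZMod p ≃ ZMod p := (Equiv.mulLeft₀ a ha).trans (Equiv.addLeft c)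
  rw [resolvent, map_div₀, map_natCast, map_sum, mul_div_assoc']
  congr 1
  rw [Finset.mul_sum]
  refine Fintype.sum_equiv e _ _ fun k => ?_
  simp only [map_mul, hσε, hσy, e, Equiv.trans_apply, Equiv.mulLeft₀_apply, Equiv.coe_addLeft,
    ← mul_assoc, ← AddChar.map_add_eq_mul]
  ring_nf

/-- A unit whose Kummer cocycle is the translation part of the action. -/
theorem exists_kummer_generator (hA : A.LiesOverPrime p) (hε : ε 1 ≠ 1)
    (hy : ∀ k, A.valuation (y k) = 1) (a c : Γℚ → ZMod p)
    (hσε : ∀ σ ∈ A.inertiaSubgroupIn ℚ, ∀ j, σ (ε j) = ε (a σ * j))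
    (hσy : ∀ σ ∈ A.inertiaSubgroupIn ℚ, ∀ k, σ (y k) = y (c σ + a σ * k))
    (hdiff : A.valuation (ε 1 - 1) ≤ A.valuation (y 1 - y (-1))) :
    ∃ x : Qbar, A.valuation x = 1 ∧ ∀ σ ∈ A.inertiaSubgroupIn ℚ, σ x = ε (c σ) * x := by
  classical
  set z := resolvent ε y with hz
  have hzσ : ∀ σ ∈ A.inertiaSubgroupIn ℚ, ∀ j, σ (z j) = ε (j * c σ) * z j := fun σ hσ =>
    map_resolvent hε (hσε σ hσ) (hσy σ hσ)
  set u := A.valuation (p : Qbar) with hu
  have hu0 : 0 < u := zero_lt_iff.2 ((map_ne_zero _).2 (Nat.cast_ne_zero.2 hp.out.ne_zero))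
  have hu1 : u < 1 := (ValuationSubring.mem_nonunits_iff _).1 hA
  have hpos : ∀ j, z j ≠ 0 → 0 < A.valuation (z j) := fun j h =>
    zero_lt_iff.2 ((map_ne_zero _).2 h)
  have hval : ∀ j, z j ≠ 0 → ∃ m : ℤ, A.valuation (z j) ^ p = u ^ m := fun j hj => by
    rw [← map_pow]
    exact valuation_eq_zpow_of_fixed hp.out hA (pow_ne_zero p hj) fun σ hσ => by
      rw [map_pow, hzσ σ hσ, mul_pow, addChar_pow_card, one_mul]
  by_cases hgood : ∃ j ≠ (0 : ZMod p), z j ≠ 0 ∧ ∃ n : ℤ, A.valuation (z j) = u ^ n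
  · obtain ⟨j, hj, hzj, n, hn⟩ := hgood
    refine ⟨(z j / (p : Qbar) ^ n) ^ (j⁻¹).val, ?_, fun σ hσ => ?_⟩
    · rw [map_pow, map_div₀, map_zpow₀, hn, div_self (zpow_ne_zero _ hu0.ne'), one_pow]
    · rw [map_pow, map_div₀, map_zpow₀, map_natCast, hzσ σ hσ, mul_div_assoc, mul_pow,
        ← AddChar.map_nsmul_eq_pow, nsmul_eq_mul, ZMod.natCast_zmod_val, ← mul_assoc,
        inv_mul_cancel₀ hj, one_mul]
  · exfalso
    push Not at hgood
    refine absurd hdiff (not_le.2 ?_)
    have hsum := sum_resolvent hε y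
    rw [← hsum 1, ← hsum (-1), ← Finset.sum_sub_distrib]
    have hε0 : (0 : A.ValueGroup) < A.valuation (ε 1 - 1) :=
      zero_lt_iff.2 ((map_ne_zero _).2 (sub_ne_zero.2 hε))
    -- valuations of the resolvents are distinct
    have hdist : ∀ i j, z i ≠ 0 → z j ≠ 0 → A.valuation (z i) = A.valuation (z j) → i = j := by
      intro i j hi hj hij
      rcases eq_or_ne i 0 with rfl | hi0
      · by_contra hne
        obtain ⟨k, hk⟩ := valuation_eq_zpow_of_fixed hp.out hA hi fun σ hσ => by
          rw [hzσ σ hσ, zero_mul, AddChar.map_zero_eq_one, one_mul]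
        exact hgood j (Ne.symm hne) hj k (hij.symm.trans hk)
      obtain ⟨m, hm⟩ := hval i hi
      have hm' : ¬ (p : ℤ) ∣ m := by
        rintro ⟨t, rfl⟩
        refine hgood i hi0 hi t ((pow_left_inj₀ zero_le zero_le hp.out.ne_zero).1 ?_)
        rw [hm, ← zpow_natCast (u ^ t), ← zpow_mul, mul_comm]
      set k := (j * i⁻¹).val with hk
      obtain ⟨r, hr⟩ := valuation_eq_zpow_of_fixed hp.out hA
        (z := z j / z i ^ k) (div_ne_zero hj (pow_ne_zero _ hi)) fun σ hσ => by
          rw [map_div₀, map_pow, hzσ σ hσ, hzσ σ hσ, mul_pow, ← AddChar.map_nsmul_eq_pow,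
            nsmul_eq_mul, ZMod.natCast_zmod_val,
            show j * i⁻¹ * (i * c σ) = j * c σ by field_simp]
          exact mul_div_mul_left _ _ (by
            intro h0
            have := v_addChar (A := A) (ε := ε) (j * c σ)
            rw [h0, map_zero] at this
            exact zero_ne_one this)
      rw [map_div₀, map_pow, div_eq_iff (pow_ne_zero _ (hpos i hi).ne'), ← hij] at hr
      have h1 := congrArg (fun t => t ^ p) hr
      simp only [mul_pow, ← pow_mul, mul_comm k p] at h1
      rw [pow_mul, hm, ← zpow_natCast (u ^ r), ← zpow_mul, ← zpow_natCast (u ^ m), ← zpow_mul,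
        ← zpow_add₀ hu0.ne'] at h1
      have h2 := zpow_right_injective₀ hu0 hu1.ne h1
      have hdvd : (p : ℤ) ∣ m * (k - 1 : ℤ) := ⟨-r, by linarith⟩
      rcases (Nat.prime_iff_prime_int.1 hp.out).dvd_or_dvd hdvd with h3 | h3
      · exact absurd h3 hm'
      · have h4 := (ZMod.intCast_zmod_eq_zero_iff_dvd _ _).2 h3
        push_cast [hk, ZMod.natCast_zmod_val] at h4
        rw [sub_eq_zero] at h4
        calc i = j * i⁻¹ * i := by rw [h4, one_mul]
          _ = j := by field_simp
    -- the largest one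
    have hne : (Finset.univ.filter fun j => z j ≠ 0).Nonempty := by
      by_contra hempty
      rw [Finset.not_nonempty_iff_eq_empty, Finset.filter_eq_empty_iff] at hempty
      have h0 : y 0 = 0 := by
        rw [← hsum 0]
        exact Finset.sum_eq_zero fun j _ => mul_eq_zero_of_right _ (not_not.1 (hempty (Finset.mem_univ j)))
      exact one_ne_zero (α := A.ValueGroup) (by rw [← hy 0, h0, map_zero])
    obtain ⟨j₀, hj₀, hmax⟩ := Finset.exists_max_image _ (fun j => A.valuation (z j)) hne
    rw [Finset.mem_filter] at hj₀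
    have hlt : ∀ j, j ≠ j₀ → A.valuation (z j) < A.valuation (z j₀) := by
      intro j hj
      rcases eq_or_ne (z j) 0 with h | h
      · rw [h, map_zero]; exact hpos _ hj₀.2
      · exact lt_of_le_of_ne (hmax j (Finset.mem_filter.2 ⟨Finset.mem_univ _, h⟩))
          fun he => hj (hdist j j₀ h hj₀.2 he)
    have hone : A.valuation (z j₀) = 1 := by
      have h := A.valuation.map_sum_eq_of_lt (s := Finset.univ)
        (f := fun j => ε (j * 0) * z j) (j := j₀) (Finset.mem_univ _) (fun j hj => by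
          simp only [mul_zero, AddChar.map_zero_eq_one, one_mul]
          exact hlt j (by simpa using hj))
      rw [hsum 0, hy 0] at h
      simpa using h.symm
    have hj₀0 : j₀ = 0 := by
      by_contra hne0
      exact hgood j₀ hne0 hj₀.2 0 (by rw [hone, zpow_zero])
    refine A.valuation.map_sum_lt hε0.ne' fun j _ => ?_
    rcases eq_or_ne j 0 with rfl | hj
    · simpa using hε0
    rw [← sub_mul, map_mul]
    have hz1 : A.valuation (z j) < 1 := hone ▸ hlt j (hj₀0 ▸ hj)
    refine (mul_le_mul' ?_ le_rfl).trans_lt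
      ((mul_lt_mul_of_pos_left hz1 hε0).trans_eq (mul_one _))
    rw [mul_neg_one, mul_one,
      show ε j - ε (-j) = (ε j - 1) - (ε (-j) - 1) by ring]
    exact A.valuation.map_sub_le (addChar_sub_one_le _) (addChar_sub_one_le _)

end FLTAgent.Reduction.Peu
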