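import Fermat.Agent.Reduction.LocalTorsion

/-!
# The size of `p`-torsion in the kernel of reduction

The non-integral roots of the `p`-th division polynomial have valuations multiplying to `1 / |p|`,
so some point of order `p` in `E₁` has `|x| ^ ((p - 1) / 2) * |p| ≤ 1`.
-/

set_option autoImplicit false

namespace FLTAgent.Reduction.Peu

open WeierstrassCurve IsLocalRing Polynomial

section General

variable {L : Type*} [Field L] [IsAlgClosed L] {A : ValuationSubring L}

/-- For a polynomial with nonzero reduction, distinct non-integral roots have valuations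
multiplying to at most the inverse of that of the leading coefficient. -/
theorem prod_nonintegral_roots_le {f : A[X]} (hf : f.map (residue A) ≠ 0) (s : Finset L)
    (hs : ∀ r ∈ s, (f.map A.subtype).eval r = 0 ∧ r ∉ A) :
    A.valuation (f.leadingCoeff : L) * ∏ r ∈ s, A.valuation r ≤ 1 := by
  classical
  have := isAlgClosed_residueField (A := A)
  obtain ⟨ab, hab⟩ : ∃ ab, (f.map (residue A)).eval ab ≠ 0 := by
    by_contra! h
    exact hf (Polynomial.funext fun x => by rw [h x, eval_zero])
  obtain ⟨a, rfl⟩ := residue_surjective ab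
  rw [eval_map_apply, ne_eq, ← ne_eq, residue_ne_zero_iff_v_eq_one] at hab
  set F := f.map A.subtype with hF
  have hf0 : f ≠ 0 := fun h => hf (by rw [h, Polynomial.map_zero])
  have hF0 : F ≠ 0 := fun h => hf0 (map_injective _ A.subtype_injective (by
    rw [← hF, h, Polynomial.map_zero]))
  have he : F.eval (a : L) = F.leadingCoeff * (F.roots.map fun r => (a : L) - r).prod := by
    conv_lhs => rw [(IsAlgClosed.splits F).eq_prod_roots]
    rw [eval_mul, eval_C, eval_multiset_prod, Multiset.map_map]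
    simp
  have hlc : F.leadingCoeff = (f.leadingCoeff : L) := by
    rw [hF, leadingCoeff_map_of_injective A.subtype_injective]; rfl
  have hout : ∀ r, r ∉ A → A.valuation ((a : L) - r) = A.valuation r := by
    intro r hr
    rw [A.valuation.map_sub_swap]
    exact A.valuation.map_sub_eq_of_lt_left ((A.valuation_le_one a).trans_lt (one_lt_v_iff.2 hr))
  have hge : ∀ r ∈ F.roots, 1 ≤ A.valuation ((a : L) - r) := by
    intro r hr
    by_cases hrA : r ∈ A
    · refine le_of_eq (Eq.symm ?_)
      refine le_antisymm (v_le_one (sub_mem a.2 hrA)) (not_lt.1 fun hlt => ?_)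
      have h0 : f.eval ⟨r, hrA⟩ = 0 := A.subtype_injective (by
        rw [← eval_map_apply, map_zero]; exact isRoot_of_mem_roots hr)
      have hres : residue A a = residue A ⟨r, hrA⟩ := residue_eq_iff_v_sub_lt_one.2 hlt
      have h1 := residue_ne_zero_iff_v_eq_one.2 hab
      rw [← eval_map_apply, hres, eval_map_apply, h0, map_zero] at h1
      exact h1 rfl
    · rw [hout r hrA]; exact (one_lt_v_iff.2 hrA).le
  have hsub : s.val ≤ F.roots :=
    (Multiset.le_iff_subset s.nodup).2 fun r hr => (mem_roots hF0).2 (hs r hr).1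
  obtain ⟨t, ht⟩ := exists_add_of_le hsub
  have h1 : A.valuation (f.leadingCoeff : L) *
      (F.roots.map fun r => A.valuation ((a : L) - r)).prod = 1 := by
    rw [← hab, show ((f.eval a : A) : L) = F.eval (a : L) from (eval_map_apply A.subtype a).symm,
      he, map_mul, hlc, map_multiset_prod, Multiset.map_map]
    rfl
  rw [← h1, ht, Multiset.map_add, Multiset.prod_add]
  refine mul_le_mul' le_rfl (le_mul_of_le_of_one_le (le_of_eq ?_) ?_)
  · rw [Finset.prod_eq_multiset_prod]
    exact congrArg Multiset.prod (Multiset.map_congr rfl fun r hr => (hout r (hs r hr).2).symm)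
  · refine Multiset.one_le_prod_of_one_le fun v hv => ?_
    obtain ⟨r, hr, rfl⟩ := Multiset.mem_map.1 hv
    exact hge r (ht ▸ Multiset.mem_add.2 (Or.inr hr))

end General

variable {A : ValuationSubring Qbar} {p : ℕ} {W : WeierstrassCurve ℤ}

/-- A point of order `p` in `E₁` whose `x`-coordinate is not too large. -/
theorem exists_small_point (hA : A.LiesOverPrime p) (hp : p.Prime) (h2 : p ≠ 2) (hΔ0 : W.Δ ≠ 0)
    (hc₄ : ¬(p : ℤ) ∣ W.c₄) :
    ∃ (x y : Qbar) (h : (WQbar W).toAffine.Nonsingular x y),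
      p • Affine.Point.some _ _ h = 0 ∧ x ∉ A ∧
        A.valuation (p : Qbar) * A.valuation x ^ ((p - 1) / 2) ≤ 1 := by
  classical
  have := Fact.mk hp
  have := isElliptic_WQbar hΔ0
  have : (W.map (Int.castRingHom ℚ)).IsElliptic :=
    ⟨isUnit_iff_ne_zero.2 (by rw [map_Δ, eq_intCast]; exact Int.cast_ne_zero.2 hΔ0)⟩
  obtain ⟨m, hm⟩ := hp.odd_of_ne_two h2
  have hW := integralAt W A
  have hne : (redCurve hW).preΨ' p ≠ 0 := preΨ'_redCurve_ne_zero hW (hp.odd_of_ne_two h2)
    (Or.inr ⟨residue_two_ne_zero hA hp h2,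
      Or.inr (by rw [WQbar_c₄]; exact v_intCast_eq_one hA hp hc₄)⟩)
  rw [redCurve, map_preΨ'] at hne
  set T := Submodule.torsionBy ℤ (WQbar W).toAffine.Point (p : ℤ) with hT
  have hcard : Nat.card T = p ^ 2 :=
    Torsion.natCard_torsionBy_qbar (W.map (Int.castRingHom ℚ)) hp.ne_zero
  have hfin : Finite T :=
    Nat.finite_of_card_ne_zero (by rw [hcard]; exact pow_ne_zero 2 hp.ne_zero)
  cases nonempty_fintype T
  let g : T → A.ValueGroup := fun P =>
    match (P : (WQbar W).toAffine.Point) with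
    | .zero => 0
    | .some x _ _ => A.valuation x
  obtain ⟨P₁, hP₁, hP₁0, hP₁1⟩ :=
    exists_torsion_mem_oneSubgroup_qbar hA hp h2 hΔ0 (Or.inr hc₄)
  have mem : ∀ Q : (WQbar W).toAffine.Point, p • Q = 0 → Q ∈ T := fun Q hQ => by
    rw [hT, Submodule.mem_torsionBy_iff, natCast_zsmul]; exact hQ
  obtain ⟨Q, hQ, hmin⟩ := Finset.exists_min_image
    (Finset.univ.filter fun P : T => P ≠ 0 ∧ (P : (WQbar W).toAffine.Point) ∈ oneSubgroup hW) g
    ⟨⟨P₁, mem P₁ hP₁⟩, Finset.mem_filter.2
      ⟨Finset.mem_univ _, fun h => hP₁0 (congrArg Subtype.val h), hP₁1⟩⟩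
  rw [Finset.mem_filter] at hQ
  obtain ⟨-, hQ0, hQ1⟩ := hQ
  have hord : addOrderOf (Q : (WQbar W).toAffine.Point) = p :=
    addOrderOf_eq_prime (nsmul_coe_torsionBy Q) fun h => hQ0 (Subtype.ext h)
  -- the multiples `k • Q`, `1 ≤ k ≤ m`
  have hk : ∀ k ∈ Finset.Icc 1 m, ∃ x y h, k • (Q : (WQbar W).toAffine.Point) = .some x y h ∧
      x ∉ A ∧ g Q ≤ A.valuation x ∧
      (((intCurve hW).preΨ' p).map A.subtype).eval x = 0 := by
    intro k hk
    rw [Finset.mem_Icc] at hk
    have hk0 : k • Q ≠ 0 := fun h => by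
      have h' := congrArg Subtype.val h
      rw [Submodule.coe_smul_of_tower, Submodule.coe_zero, ← addOrderOf_dvd_iff_nsmul_eq_zero,
        hord] at h'
      have := Nat.le_of_dvd (by omega) h'
      omega
    have hk1 : (k • Q : (WQbar W).toAffine.Point) ∈ oneSubgroup hW :=
      AddSubgroup.nsmul_mem _ hQ1 k
    have hmk := hmin (k • Q) (Finset.mem_filter.2 ⟨Finset.mem_univ _, hk0, by
      rw [Submodule.coe_smul_of_tower]; exact hk1⟩)
    have hpk : p • (k • (Q : (WQbar W).toAffine.Point)) = 0 := by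
      rw [smul_comm, nsmul_coe_torsionBy, nsmul_zero]
    simp only [g, Submodule.coe_smul_of_tower] at hmk
    rcases hkQ : k • (Q : (WQbar W).toAffine.Point) with _ | ⟨x, y, h⟩
    · exact absurd (Subtype.ext (by rw [Submodule.coe_smul_of_tower]; exact hkQ)) hk0
    · rw [hkQ] at hk1 hmk hpk
      refine ⟨x, y, h, rfl, hk1, hmk, ?_⟩
      rw [← natCast_zsmul, Torsion.zsmul_some_eq_zero_iff, ΨSq_ofNat,
        if_neg (Nat.not_even_iff_odd.2 (hp.odd_of_ne_two h2)), mul_one, eval_pow,
        pow_eq_zero_iff two_ne_zero] at hpk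
      rw [← map_preΨ', intCurve_map]
      exact hpk
  choose X Y hns hX hXA hXmin hXroot using hk
  have hinj : ∀ a ha b hb, X a ha = X b hb → a = b := by
    intro a ha b hb he
    have hab : a • (Q : (WQbar W).toAffine.Point) = b • Q ∨
        a • (Q : (WQbar W).toAffine.Point) = -(b • Q) := by
      rw [hX a ha, hX b hb]
      rcases Affine.Y_eq_of_X_eq (hns a ha).1 (hns b hb).1 he with h | h
      · left; simp only [Affine.Point.some.injEq]; exact ⟨he, h⟩
      · right; rw [Affine.Point.neg_some]; simp only [Affine.Point.some.injEq]; exact ⟨he, h⟩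
    rw [Finset.mem_Icc] at ha hb
    rcases hab with h | h
    · rw [nsmul_eq_nsmul_iff_modEq, hord] at h
      exact h.eq_of_lt_of_lt (by omega) (by omega)
    · rw [eq_neg_iff_add_eq_zero, ← add_nsmul, ← addOrderOf_dvd_iff_nsmul_eq_zero, hord] at h
      have := Nat.le_of_dvd (by omega) h; omega
  let s : Finset Qbar := (Finset.Icc 1 m).attach.image fun k => X k.1 k.2
  have hprod := prod_nonintegral_roots_le (f := (intCurve hW).preΨ' p) hne s fun r hr => by
    obtain ⟨k, -, rfl⟩ := Finset.mem_image.1 hr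
    exact ⟨hXroot k.1 k.2, hXA k.1 k.2⟩
  have hlead : (((intCurve hW).preΨ' p).leadingCoeff : Qbar) = (p : Qbar) := by
    rw [(intCurve hW).leadingCoeff_preΨ' (fun h => hp.ne_zero (Nat.cast_eq_zero.1
      (by simpa using congrArg A.subtype h : (p : Qbar) = 0))),
      if_neg (Nat.not_even_iff_odd.2 (hp.odd_of_ne_two h2))]
    simp
  rw [hlead, Finset.prod_image fun a _ b _ h => Subtype.ext (hinj _ a.2 _ b.2 h)] at hprod
  rcases hQe : (Q : (WQbar W).toAffine.Point) with _ | ⟨x, y, h⟩
  · exact absurd (Subtype.ext hQe) hQ0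
  refine ⟨x, y, h, ?_, ?_, le_trans (mul_le_mul' le_rfl ?_) hprod⟩
  · rw [← hQe]; exact nsmul_coe_torsionBy Q
  · rw [hQe] at hQ1; exact hQ1
  · have hgQ : g Q = A.valuation x := by simp only [g, hQe]
    rw [show (p - 1) / 2 = (Finset.Icc 1 m).attach.card by simp; omega, ← hgQ]
    exact Finset.pow_card_le_prod _ _ _ fun k _ => hXmin k.1 k.2

end FLTAgent.Reduction.Peu
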