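import Fermat.Agent.Reduction.AtP
import Fermat.Agent.Reduction.Peu.Coset
import Fermat.Agent.Reduction.Peu.Resolvent
import Fermat.Agent.Reduction.Peu.TorsionSize

/-!
# Peu ramifié: the extension class of `E[p]` is the Kummer class of a unit

At a multiplicative odd prime `p` with `p ∣ v_p(Δ)`, inertia acts on a basis of `E[p]` by
`(a, c; 0, 1)` where `a` is the cyclotomic character and `c` the Kummer cocycle of a unit.
-/

set_option autoImplicit false

noncomputable section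

namespace FLTAgent.Reduction.Peu

open WeierstrassCurve WeierstrassCurve.Affine.Point IsLocalRing

variable {W : WeierstrassCurve ℤ} {p : ℕ} [hp : Fact p.Prime] {A : ValuationSubring Qbar}

/-- The `x`-coordinate. -/
def xCoord (P : (WQbar W).toAffine.Point) : Qbar :=
  match P with
  | .zero => 0
  | .some x _ _ => x

lemma xCoord_smul (σ : Qbar ≃ₐ[ℚ] Qbar) (P : (WQbar W).toAffine.Point) :
    xCoord (σ • P) = σ (xCoord P) := by
  cases P with
  | zero => exact (map_zero σ).symm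
  | some x y h => rw [smul_some]; rfl

/-- The Kummer data of `E[p]` at a multiplicative prime `p` dividing the valuation of `Δ`. -/
theorem exists_kummer_data (hA : A.LiesOverPrime p) (h2 : p ≠ 2) (hΔ0 : W.Δ ≠ 0)
    (hbad : (p : ℤ) ∣ W.Δ) (hc₄ : ¬(p : ℤ) ∣ W.c₄) (hdiv : p ∣ padicValInt p W.Δ) :
    ∃ (b : Module.Basis (Fin 2) (ZMod p) (TorsQ W p)) (ε : AddChar (ZMod p) Qbar) (x : Qbar)
      (a c : (Qbar ≃ₐ[ℚ] Qbar) → ZMod p),
      ε 1 ≠ 1 ∧ A.valuation x = 1 ∧ ∀ σ ∈ A.inertiaSubgroupIn ℚ,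
        (∀ j, σ (ε j) = ε (a σ * j)) ∧ σ • b 0 = a σ • b 0 ∧ σ • b 1 = c σ • b 0 + b 1 ∧
          σ x = ε (c σ) * x := by
  classical
  have hodd : Odd p := hp.out.odd_of_ne_two h2
  have := isElliptic_rat hΔ0
  have : ((W.map (Int.castRingHom ℚ))⁄Qbar).IsElliptic :=
    WeilPairing.isElliptic_qbar (W.map (Int.castRingHom ℚ))
  have hW := integralAt W A
  obtain ⟨X, Y, hXY, hQp, hXA, hXm⟩ := exists_small_point hA hp.out h2 hΔ0 hc₄
  obtain ⟨P₀, hP₀, hP₀0⟩ :=
    exists_torsion_not_mem_zeroSubgroup_qbar hA hp.out hp.out h2 hΔ0 hbad hc₄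
  have mem : ∀ Q : (WQbar W).toAffine.Point, p • Q = 0 → Q ∈ TorsQ W p := fun Q hQ => by
    rw [Submodule.mem_torsionBy_iff, natCast_zsmul]; exact hQ
  obtain ⟨⟨b, hb0, hb1⟩, hmem⟩ := exists_basis_of_line hΔ0 (oneSubgroup hW)
    (P₁ := ⟨_, mem _ hQp⟩) (P₀ := ⟨P₀, mem P₀ hP₀⟩)
    (fun h => Affine.Point.some_ne_zero hXY (congrArg Subtype.val h)) hXA
    (fun h => hP₀0 (oneSubgroup_le hW h))
  rw [← hb0] at hmem
  set a : (Qbar ≃ₐ[ℚ] Qbar) → ZMod p := fun σ => b.repr (σ • b 0) 0 with ha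
  set c : (Qbar ≃ₐ[ℚ] Qbar) → ZMod p := fun σ => b.repr (σ • b 1) 0 with hc
  have hspan : ∀ v : TorsQ W p, (v : (WQbar W).toAffine.Point) ∈ oneSubgroup hW →
      v = b.repr v 0 • b 0 := by
    intro v hv
    obtain ⟨s, rfl⟩ := Submodule.mem_span_singleton.1 ((hmem v).2 hv)
    simp
  have hsmul : ∀ σ ∈ A.inertiaSubgroupIn ℚ,
      σ • b 0 = a σ • b 0 ∧ σ • b 1 = c σ • b 0 + b 1 := by
    intro σ hσ
    constructor
    · exact hspan _ (smul_mem_oneSubgroup (inertia_le_decomposition hσ)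
        ((hmem (b 0)).1 (Submodule.mem_span_singleton_self _)))
    · have h1 : ((σ • b 1 - b 1 : TorsQ W p) : (WQbar W).toAffine.Point) ∈ oneSubgroup hW :=
        mem_oneSubgroup_of_mem_zeroSubgroup hA hp.out h2 hΔ0 hbad hc₄
          (nsmul_coe_torsionBy _) (smul_sub_mem_zeroSubgroup hA hp.out hΔ0 hbad hc₄ hσ _)
      have h3 := hspan _ h1
      rw [map_sub, Finsupp.sub_apply, Module.Basis.repr_self, Finsupp.single_apply,
        if_neg (by decide), sub_zero] at h3
      exact sub_eq_iff_eq_add.1 h3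
  obtain ⟨ζ, hζ⟩ := HasEnoughRootsOfUnity.exists_primitiveRoot Qbar p
  set ε : AddChar (ZMod p) Qbar := AddChar.zmodChar p hζ.pow_eq_one with hεdef
  have hεn : ∀ n : ℕ, ε (n : ZMod p) = ζ ^ n := fun n => AddChar.zmodChar_apply' _ n
  have hε : ε 1 ≠ 1 := by
    rw [← Nat.cast_one, hεn, pow_one]
    exact hζ.ne_one hp.out.one_lt
  have hσε : ∀ σ ∈ A.inertiaSubgroupIn ℚ, ∀ j, σ (ε j) = ε (a σ * j) := by
    intro σ hσ j
    obtain ⟨i, -, hi⟩ := hζ.eq_pow_of_pow_eq_one
      (ξ := σ ζ) (by rw [← map_pow, hζ.pow_eq_one, map_one])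
    have hdet := WeilPairing.det_galoisRepModuleEnd_eq_of_forall_pow
      (W.map (Int.castRingHom ℚ)) p (Nat.cast_ne_zero.2 hp.out.ne_zero) σ i fun μ hμ => by
        obtain ⟨k, -, rfl⟩ := hζ.eq_pow_of_pow_eq_one hμ
        rw [map_pow, ← hi, ← pow_mul, ← pow_mul, mul_comm]
    rw [← LinearMap.det_toMatrix b, Matrix.det_fin_two] at hdet
    simp only [LinearMap.toMatrix_apply, galoisRepModuleEnd_apply, (hsmul σ hσ).1,
      (hsmul σ hσ).2, map_add, map_smul, Module.Basis.repr_self, Finsupp.add_apply,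
      Finsupp.smul_apply, Finsupp.single_apply, smul_eq_mul] at hdet
    simp at hdet
    rw [← ZMod.natCast_zmod_val j, hεn, map_pow, ← hi, ← pow_mul, hdet, ← Nat.cast_mul, hεn]
  -- the units `y k`
  obtain ⟨x₀, y₀, α, r, hn, h⟩ := exists_nodal hA hp.out hΔ0 hbad hc₄
  let R : ZMod p → (WQbar W).toAffine.Point := fun k => ((b 1 + k • b 0 : TorsQ W p) :)
  have hRp : ∀ k, p • R k = 0 := fun k => nsmul_coe_torsionBy _
  have hb1' : (b 1 : (WQbar W).toAffine.Point) = P₀ := by rw [hb1]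
  have hRdiff : ∀ k, R k - P₀ ∈ zeroSubgroup hW := fun k => by
    simp only [R, Submodule.coe_add, hb1', add_sub_cancel_left]
    exact oneSubgroup_le hW ((hmem _).1 (Submodule.smul_mem _ _
      (Submodule.mem_span_singleton_self _)))
  have hR0 : ∀ k, R k ∉ zeroSubgroup hW := fun k hk =>
    hP₀0 (sub_sub_cancel (R k) P₀ ▸ sub_mem hk (hRdiff k))
  have hout := fun k => exists_outside hn h hodd (hRp k) (hR0 k)
  choose xr yr hxyr hR hr hr1 _ using hout
  obtain ⟨n, hn0⟩ := exists_valuation_eq_zpow hn h hA hp.out h2 hΔ0 hdiv (hRp 0) (hR0 0) (hR 0)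
  have hvx : ∀ k, A.valuation (xr k - x₀) = A.valuation (p : Qbar) ^ n := fun k => by
    rw [← hn0]
    refine valuation_congr hn h hodd (hRp 0) (hRp k) (hR0 0) ?_ (hR 0) (hR k)
    rw [show R k - R 0 = (R k - P₀) - (R 0 - P₀) by abel]
    exact sub_mem (hRdiff k) (hRdiff 0)
  set u : Qbar := (p : Qbar) ^ n with hu
  have hvu : A.valuation u = A.valuation (p : Qbar) ^ n := map_zpow₀ _ _ _
  have hu0 : A.valuation u ≠ 0 := by
    rw [hvu]; exact zpow_ne_zero _ ((map_ne_zero _).2 (Nat.cast_ne_zero.2 hp.out.ne_zero))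
  set y : ZMod p → Qbar := fun k => (xCoord (R k) - x₀) / u with hy
  have hxc : ∀ k, xCoord (R k) = xr k := fun k => by rw [hR k]; rfl
  have hy1 : ∀ k, A.valuation (y k) = 1 := fun k => by
    rw [hy, map_div₀, hxc, hvx, hvu, div_self]
    rw [← hvu]; exact hu0
  have hσy : ∀ σ ∈ A.inertiaSubgroupIn ℚ, ∀ k, σ (y k) = y (c σ + a σ * k) := by
    intro σ hσ k
    have hRσ : σ • R k = R (c σ + a σ * k) := by
      show ((σ • (b 1 + k • b 0) : TorsQ W p) : (WQbar W).toAffine.Point) = _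
      simp only [R]
      rw [smul_add, smul_comm σ k, (hsmul σ hσ).1, (hsmul σ hσ).2, smul_smul, add_smul,
        mul_comm k]
      congr 1
      abel
    simp only [hy]
    rw [map_div₀, map_sub, (node_fixed hn hσ).1, ← xCoord_smul, hRσ, hu, map_zpow₀, map_natCast]
  -- the displacement
  have hdiff : A.valuation (ε 1 - 1) ≤ A.valuation (y 1 - y (-1)) := by
    have e₃ : Affine.Point.some _ _ (hxyr 0) + .some _ _ hXY = .some _ _ (hxyr 1) := by
      rw [← hR 0, ← hR 1]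
      simp only [R, zero_smul, one_smul, Submodule.coe_add, Submodule.coe_zero, add_zero]
      rw [show (b 0 : (WQbar W).toAffine.Point) = .some _ _ hXY by rw [hb0]]
    have e₄ : Affine.Point.some _ _ (hxyr 0) - .some _ _ hXY = .some _ _ (hxyr (-1)) := by
      rw [← hR 0, ← hR (-1)]
      simp only [R, zero_smul, neg_smul, one_smul, Submodule.coe_add, Submodule.coe_neg,
        Submodule.coe_zero, add_zero]
      rw [show (b 0 : (WQbar W).toAffine.Point) = .some _ _ hXY by rw [hb0], sub_eq_add_neg]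
    have hd := v_sq_sub hn h hA hp.out h2 (hr 0) (hr1 0) hXA e₃ e₄
    set d := A.valuation (y 1 - y (-1)) with hdd
    have hd' : d ^ 2 * A.valuation X = 1 := by
      have hd'' : d = A.valuation (xr 1 - xr (-1)) / A.valuation u := by
        rw [hdd, hy]
        simp only [hxc, ← sub_div, map_div₀]
        congr 2
        ring
      rw [hd'', div_pow, div_mul_eq_mul_div, hd, hvx, ← hvu, div_self (pow_ne_zero 2 hu0)]
    obtain ⟨m, hm⟩ := hodd
    have h1 : A.valuation (ε 1 - 1) ^ (2 * m) ≤ d ^ (2 * m) := by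
      rw [show 2 * m = p - 1 by omega, v_addChar_sub_one_pow hε, show p - 1 = 2 * m by omega]
      rw [show (p - 1) / 2 = m by omega] at hXm
      have hX0 : 0 < A.valuation X ^ m := pow_pos (zero_lt_one.trans (one_lt_v_iff.2 hXA)) m
      refine le_of_mul_le_mul_right (hXm.trans_eq ?_) hX0
      rw [pow_mul, ← mul_pow, hd', one_pow]
    have hm0 : 2 * m ≠ 0 := by have := hp.out.two_le; omega
    exact (pow_le_pow_iff_left₀ zero_le zero_le hm0).1 h1
  obtain ⟨x, hx, hxσ⟩ := exists_kummer_generator hA hε hy1 a c hσε hσy hdiff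
  exact ⟨b, ε, x, a, c, hε, hx, fun σ hσ =>
    ⟨hσε σ hσ, (hsmul σ hσ).1, (hsmul σ hσ).2, hxσ σ hσ⟩⟩

end FLTAgent.Reduction.Peu
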