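import Fermat.Agent.Char.Unramified
import Fermat.Agent.Frobenius.Places
import Mathlib.FieldTheory.Normal.Closure
import Mathlib.NumberTheory.RamificationInertia.HilbertTheory
import Mathlib.RingTheory.Filtration
import Mathlib.RingTheory.RamificationInertia.Ramification

/-!
# Valuations in the inertia field

An algebraic number fixed by the inertia group of a place over `q` has there the valuation of a
power of `q`.
-/

set_option autoImplicit false

namespace FLTAgent.Reduction.Peu

open scoped NumberField Pointwise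
open FLTAgent

local notation "ℚbar" => AlgebraicClosure ℚ

section Field

variable {F : Type*} [Field F] [NumberField F] (φ : F →+* ℚbar) (A : ValuationSubring ℚbar)

/-- The integers of `F` as algebraic integers. -/
noncomputable def toInt : 𝓞 F →+* integralClosure ℤ ℚbar :=
  (φ.comp (algebraMap (𝓞 F) F)).codRestrict (integralClosure ℤ ℚbar).toSubring fun x =>
    (NumberField.RingOfIntegers.isIntegral_coe x).map φ.toIntAlgHom

omit [NumberField F] in
@[simp] lemma coe_toInt (x : 𝓞 F) :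
    ((toInt φ x : integralClosure ℤ ℚbar) : ℚbar) = φ (x : F) := rfl

/-- The prime of `F` below a place of `ℚ̄`. -/
noncomputable def placeIdeal : Ideal (𝓞 F) := (GalChar.centreIdeal A).comap (toInt φ)

omit [NumberField F] in
lemma mem_placeIdeal {x : 𝓞 F} : x ∈ placeIdeal φ A ↔ A.valuation (φ (x : F)) < 1 :=
  Ideal.mem_comap.trans GalChar.mem_centreIdeal

instance placeIdeal_isPrime : (placeIdeal φ A).IsPrime := Ideal.comap_isPrime _ _

variable {A} {q : ℕ}

omit [NumberField F] in
lemma natCast_mem_placeIdeal (hA : A.LiesOverPrime q) : (q : 𝓞 F) ∈ placeIdeal φ A := by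
  rw [mem_placeIdeal]
  simpa using (ValuationSubring.mem_nonunits_iff _).1 hA

omit [NumberField F] in
lemma liesOver_placeIdeal (hq : q.Prime) (hA : A.LiesOverPrime q) :
    (placeIdeal φ A).LiesOver (Ideal.span {(q : ℤ)}) := by
  refine (Ideal.liesOver_span_iff (placeIdeal_isPrime φ A).ne_top
    (Nat.prime_iff_prime_int.1 hq)).2 ?_
  rw [map_natCast]
  exact natCast_mem_placeIdeal φ hA

/-- At a place unramified over `q` valuations are powers of that of `q`. -/
theorem valuation_eq_zpow_of_ramificationIdx_eq_one (hq : q.Prime) (hA : A.LiesOverPrime q)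
    (he : (placeIdeal φ A).ramificationIdx ℤ = 1) {x : F} (hx : x ≠ 0) :
    ∃ k : ℤ, A.valuation (φ x) = A.valuation (q : ℚbar) ^ k := by
  have hp0 : (Ideal.span {(q : ℤ)}).IsPrime :=
    (Ideal.span_singleton_prime (by exact_mod_cast hq.ne_zero)).2 (Nat.prime_iff_prime_int.1 hq)
  set P := placeIdeal φ A with hP
  have hover : P.LiesOver (Ideal.span {(q : ℤ)}) := liesOver_placeIdeal φ hq hA
  have hqP : (q : 𝓞 F) ∈ P := natCast_mem_placeIdeal φ hA
  have hunr : Algebra.IsUnramifiedAt ℤ P := Ideal.ramificationIdx_eq_one_iff.1 he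
  let := Localization.AtPrime.algebraOfLiesOver (Ideal.span {(q : ℤ)}) P
  have hmap := ((Algebra.isUnramifiedAt_iff_map_eq ℤ (Ideal.span {(q : ℤ)}) P).mp hunr).2
  have hv1 : ∀ z : 𝓞 F, z ∉ P → A.valuation (φ (z : F)) = 1 := fun z hz =>
    le_antisymm (GalChar.valuation_le_one_of_isIntegral A (toInt φ z).2)
      (not_lt.1 fun h => hz ((mem_placeIdeal φ A).2 h))
  have hint : ∀ z : 𝓞 F, z ≠ 0 → ∃ k : ℕ, A.valuation (φ (z : F)) = A.valuation (q : ℚbar) ^ k := by
    intro z hz
    classical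
    have hex : ∃ k, z ∉ P ^ k := by
      by_contra! h
      refine hz ?_
      rw [← Ideal.mem_bot, ← Ideal.iInf_pow_eq_bot_of_isDomain P (placeIdeal_isPrime φ A).ne_top,
        Ideal.mem_iInf]
      exact h
    obtain ⟨k, hk⟩ : ∃ k, Nat.find hex = k + 1 :=
      Nat.exists_eq_succ_of_ne_zero fun h => by
        have := Nat.find_spec hex
        rw [h, pow_zero, Ideal.one_eq_top] at this
        exact this trivial
    have hin : z ∈ P ^ k := not_not.1 (Nat.find_min hex (hk ▸ Nat.lt_succ_self k))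
    have hout : z ∉ P ^ (k + 1) := hk ▸ Nat.find_spec hex
    refine ⟨k, ?_⟩
    have hloc : algebraMap (𝓞 F) (Localization.AtPrime P) z ∈
        Ideal.map (algebraMap (𝓞 F) (Localization.AtPrime P))
          (Ideal.span {(q : 𝓞 F) ^ k}) := by
      have h1 := Ideal.mem_map_of_mem (algebraMap (𝓞 F) (Localization.AtPrime P)) hin
      rw [Ideal.map_pow, Localization.AtPrime.map_eq_maximalIdeal, ← hmap,
        Ideal.map_span, Set.image_singleton, Ideal.span_singleton_pow, map_natCast] at h1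
      rwa [Ideal.map_span, Set.image_singleton, map_pow, map_natCast]
    obtain ⟨s, hs, hsz⟩ :=
      (IsLocalization.algebraMap_mem_map_algebraMap_iff P.primeCompl _ _ z).1 hloc
    obtain ⟨y, hy⟩ := Ideal.mem_span_singleton'.1 hsz
    have hyP : y ∉ P := fun hyP => hout <| by
      refine (Ideal.IsPrime.mul_mem_pow P (a := s) ?_).resolve_left hs
      rw [← hy, pow_succ']
      exact Ideal.mul_mem_mul hyP (Ideal.pow_mem_pow hqP k)
    have e := congrArg (fun w : 𝓞 F => A.valuation (φ (w : F))) hy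
    simp only [map_mul, map_pow, map_natCast] at e
    rw [hv1 s hs, hv1 y hyP, one_mul, one_mul] at e
    exact e.symm
  obtain ⟨a, b, hb, hab⟩ := IsFractionRing.div_surjective (𝓞 F) x
  have ha0 : a ≠ 0 := fun h => hx (by rw [← hab, h]; simp)
  obtain ⟨k, hk⟩ := hint a ha0
  obtain ⟨m, hm⟩ := hint b (nonZeroDivisors.ne_zero hb)
  refine ⟨(k : ℤ) - m, ?_⟩
  rw [← hab, map_div₀, map_div₀, zpow_sub₀, zpow_natCast, zpow_natCast, ← hk, ← hm]
  exact (Valuation.ne_zero_iff _).2 (Nat.cast_ne_zero.2 hq.ne_zero)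

end Field

variable {q : ℕ} {A : ValuationSubring ℚbar}

/-- An algebraic number fixed by inertia at `A` has the valuation of a power of `q`. -/
theorem valuation_eq_zpow_of_fixed (hq : q.Prime) (hA : A.LiesOverPrime q) {z : ℚbar} (hz : z ≠ 0)
    (h : ∀ σ ∈ A.inertiaSubgroupIn ℚ, σ z = z) :
    ∃ k : ℤ, A.valuation z = A.valuation (q : ℚbar) ^ k := by
  have : Algebra.IsAlgebraic ℚ ℚbar := AlgebraicClosure.isAlgebraic ℚ
  have : IsAlgClosure ℚ ℚbar := ⟨inferInstance, inferInstance⟩
  have : Normal ℚ ℚbar := IsAlgClosure.normal ℚ ℚbar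
  let E : IntermediateField ℚ ℚbar := IntermediateField.adjoin ℚ {z}
  have : FiniteDimensional ℚ E :=
    IntermediateField.adjoin.finiteDimensional (Algebra.IsIntegral.isIntegral z)
  let L : IntermediateField ℚ ℚbar := IntermediateField.normalClosure ℚ E ℚbar
  have : Normal ℚ L := normalClosure.normal ℚ E ℚbar
  have : FiniteDimensional ℚ L := normalClosure.is_finiteDimensional ℚ E ℚbar
  have : IsGalois ℚ L := ⟨⟩
  have : NumberField L := { to_finiteDimensional := inferInstance }
  have hzL : z ∈ L := E.le_normalClosure (IntermediateField.mem_adjoin_simple_self ℚ z)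
  let : MulSemiringAction Gal(L/ℚ) (𝓞 L) := IsIntegralClosure.MulSemiringAction ℤ ℚ L (𝓞 L)
  have := IsGaloisGroup.of_isFractionRing Gal(L/ℚ) ℤ (𝓞 L) ℚ L
  let P : Ideal (𝓞 L) := placeIdeal L.val.toRingHom A
  have hP : P.IsPrime := placeIdeal_isPrime _ A
  have hp0 : (Ideal.span {(q : ℤ)}).IsPrime :=
    (Ideal.span_singleton_prime (by exact_mod_cast hq.ne_zero)).2 (Nat.prime_iff_prime_int.1 hq)
  have hover : P.LiesOver (Ideal.span {(q : ℤ)}) := liesOver_placeIdeal _ hq hA
  set T := P.inertia Gal(L/ℚ) with hT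
  let F : IntermediateField ℚ L := FixedPoints.intermediateField T
  have : NumberField F := { to_finiteDimensional := inferInstance }
  have hzF : (⟨z, hzL⟩ : L) ∈ F := by
    rintro ⟨g, hg⟩
    obtain ⟨σ₀, hσ₀⟩ := AlgEquiv.restrictNormalHom_surjective (F := ℚ) (K₁ := L) ℚbar g
    have hg' : ∀ x : L, σ₀ (x : ℚbar) = ((g x : L) : ℚbar) := fun x => by
      rw [← hσ₀]
      exact (AlgEquiv.restrictNormal_commutes σ₀ L x).symm
    obtain ⟨σ, hσ, hσL⟩ := GalChar.exists_mem_inertiaSubgroupIn_eq_on A L σ₀ fun x hx hxi => by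
      have hxi' : IsIntegral ℤ (⟨x, hx⟩ : L) :=
        (isIntegral_algHom_iff (L.val.restrictScalars ℤ) Subtype.val_injective).1 hxi
      obtain ⟨w, hw⟩ : ∃ w : 𝓞 L, (w : L) = ⟨x, hx⟩ := ⟨⟨⟨x, hx⟩, hxi'⟩, rfl⟩
      have h' := hg w
      rw [Submodule.mem_toAddSubgroup, mem_placeIdeal] at h'
      have hsmul : (((g • w : 𝓞 L) : L)) = g ⟨x, hx⟩ :=
        hw ▸ algebraMap_galRestrict_apply (B := 𝓞 L) ℤ (g : L ≃ₐ[ℚ] L) w
      rw [hg' ⟨x, hx⟩]
      rw [show ((g • w - w : 𝓞 L) : L) = ((g • w : 𝓞 L) : L) - (w : L) from rfl, map_sub, hsmul,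
        hw] at h'
      exact h'
    refine Subtype.ext ?_
    show ((g ⟨z, hzL⟩ : L) : ℚbar) = z
    rw [← hg' ⟨z, hzL⟩, ← hσL z hzL]
    exact h σ hσ
  have : IsGaloisGroup T F L := IsGaloisGroup.subgroup Gal(L/ℚ) ℚ L T
  have hGT : IsGaloisGroup T (𝓞 F) (𝓞 L) := IsGaloisGroup.of_isFractionRing T (𝓞 F) (𝓞 L) F L
  let PF : Ideal (𝓞 F) := P.under (𝓞 F)
  have hPFeq : PF = placeIdeal (L.val.toRingHom.comp (algebraMap F L)) A := by
    ext w
    rw [Ideal.mem_comap, mem_placeIdeal, mem_placeIdeal]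
    rfl
  have hPF : PF.IsPrime := Ideal.IsPrime.under _ P
  have hq0 : Ideal.span {(q : ℤ)} ≠ ⊥ := by simp [hq.ne_zero]
  have hPlies : P.LiesOver PF := Ideal.over_under P
  have hPF0 : PF ≠ ⊥ := fun h0 => by
    have hmem : (q : 𝓞 F) ∈ PF := hPFeq ▸ natCast_mem_placeIdeal _ hA
    rw [h0, Ideal.mem_bot] at hmem
    exact hq.ne_zero (Nat.cast_eq_zero.1 hmem)
  have : PF.IsMaximal := hPF.isMaximal hPF0
  have : Finite (𝓞 F ⧸ PF) := Ring.HasFiniteQuotients.finiteQuotient hPF0
  have : PerfectField (Ideal.span {(q : ℤ)}).ResidueField := inferInstance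
  have : PerfectField PF.ResidueField := inferInstance
  have h1 : Nat.card T = P.ramificationIdx ℤ := by
    rw [hT, Ideal.card_inertia_eq_ramificationIdxIn (Ideal.span {(q : ℤ)}) P,
      Ideal.ramificationIdxIn_eq_ramificationIdx _ P Gal(L/ℚ)]
  have h2 : Nat.card T = P.ramificationIdx (𝓞 F) := by
    rw [← Ideal.ramificationIdxIn_eq_ramificationIdx PF P T,
      ← Ideal.card_inertia_eq_ramificationIdxIn (G := T) PF P]
    refine (Nat.card_congr ?_).symm
    exact Equiv.subtypeUnivEquiv fun g => AddSubgroup.coe_mem_inertia.1 g.2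
  have he : PF.ramificationIdx ℤ = 1 := by
    have htower := Ideal.ramificationIdx_tower (R := ℤ) PF P
    rw [← h1, ← h2] at htower
    exact (right_eq_mul₀ Nat.card_pos.ne').1 htower
  rw [hPFeq] at he
  exact valuation_eq_zpow_of_ramificationIdx_eq_one _ hq hA he
    (x := (⟨⟨z, hzL⟩, hzF⟩ : F)) fun h0 => hz (congrArg (fun w : F => ((w : L) : ℚbar)) h0)

end FLTAgent.Reduction.Peu
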