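import Fermat.Agent.FlatModel.Ctx
import Fermat.Agent.GoodRed.QbarPlace
import Fermat.Agent.Reduction.Peu.InertiaField
import Mathlib.Algebra.Algebra.Hom.Rat

/-!
# Inertia at a place of `ℚ̄` as an unramified base

The inertia group of a place over `p`, as ring automorphisms of `ℚ̄`, satisfies
`FlatModel.IsUnramifiedBase`.
-/

set_option autoImplicit false

noncomputable section

namespace FLTAgent.Reduction.Peu

local notation "Qbar" => AlgebraicClosure ℚ
local notation "Γℚ" => AlgebraicClosure ℚ ≃ₐ[ℚ] AlgebraicClosure ℚ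

/-- An automorphism of `ℚ̄` as a ring automorphism. -/
def toRingEquivHom : Γℚ →* (Qbar ≃+* Qbar) where
  toFun σ := σ.toRingEquiv
  map_one' := rfl
  map_mul' _ _ := rfl

/-- The inertia group as ring automorphisms. -/
def inertiaRing (A : ValuationSubring Qbar) : Subgroup (Qbar ≃+* Qbar) :=
  (A.inertiaSubgroupIn ℚ).map toRingEquivHom

/-- Back to `ℚ`-algebra automorphisms. -/
def inertiaLift (A : ValuationSubring Qbar) : inertiaRing A →* Γℚ where
  toFun τ := (τ : Qbar ≃+* Qbar).toRatAlgEquiv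
  map_one' := AlgEquiv.ext fun _ => rfl
  map_mul' _ _ := AlgEquiv.ext fun _ => rfl

variable {A : ValuationSubring Qbar} {p : ℕ}

lemma inertiaLift_apply (τ : inertiaRing A) (x : Qbar) :
    inertiaLift A τ x = (τ : Qbar ≃+* Qbar) x := rfl

lemma inertiaLift_mem (τ : inertiaRing A) : inertiaLift A τ ∈ A.inertiaSubgroupIn ℚ := by
  obtain ⟨τ, σ, hσ, rfl⟩ := τ
  have h : inertiaLift A ⟨toRingEquivHom σ, σ, hσ, rfl⟩ = σ := AlgEquiv.ext fun _ => rfl
  exact h.symm ▸ hσ

lemma mem_inertiaRing {σ : Γℚ} (hσ : σ ∈ A.inertiaSubgroupIn ℚ) :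
    toRingEquivHom σ ∈ inertiaRing A :=
  ⟨σ, hσ, rfl⟩

/-- Inertia at a place over `p` is an unramified base. -/
theorem isUnramifiedBase_inertiaRing (hA : A.LiesOverPrime p) (hp : p.Prime) :
    FlatModel.IsUnramifiedBase p A (inertiaRing A) := by
  have : Algebra.IsAlgebraic ℚ Qbar := AlgebraicClosure.isAlgebraic ℚ
  have hu1 : A.valuation (p : Qbar) < 1 := (ValuationSubring.mem_nonunits_iff _).1 hA
  have hu0 : 0 < A.valuation (p : Qbar) :=
    zero_lt_iff.2 ((map_ne_zero _).2 (Nat.cast_ne_zero.2 hp.ne_zero))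
  refine ⟨hp, hu1, ?_, ?_, ?_, ?_⟩
  · rintro _ ⟨σ, hσ, rfl⟩ x
    exact v_map_eq (inertia_le_decomposition hσ) x
  · rintro _ ⟨σ, hσ, rfl⟩ x hx
    exact v_map_sub_lt_one hσ hx
  · intro x hx hlt
    rcases eq_or_ne x 0 with rfl | hx0
    · rw [map_zero]; exact zero_le
    obtain ⟨k, hk⟩ := valuation_eq_zpow_of_fixed hp hA hx0
      fun σ hσ => hx _ (mem_inertiaRing hσ)
    have hk1 : 1 ≤ k := by
      by_contra h
      rw [hk] at hlt
      exact not_le.2 hlt (one_le_zpow_of_nonpos₀ hu0 hu1.le (by omega))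
    rw [hk]
    exact (zpow_le_zpow_right_of_le_one₀ hu0 hu1.le hk1).trans_eq (zpow_one _)
  · intro x hx
    obtain ⟨d, e, hd, he⟩ := GoodRed.exists_pow_value_eq_zpow hA hp hx
    refine ⟨e.natAbs + 1, (pow_lt_pow_iff_left₀ zero_le zero_le hd.ne').1 ?_⟩
    rw [he, ← pow_mul, ← zpow_natCast]
    refine zpow_lt_zpow_right_of_lt_one₀ hu0 hu1 ?_
    have : (e.natAbs + 1) * 1 ≤ (e.natAbs + 1) * d := Nat.mul_le_mul_left _ hd
    have := Int.le_natAbs (a := e)
    omega

end FLTAgent.Reduction.Peu
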