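import Fermat.Agent.FlatModel.Basic
import Fermat.Agent.FlatModel.Ordinary
import Fermat.Agent.Reduction.Peu.Base
import Fermat.Agent.Reduction.Peu.Kummer
import Fermat.Prelude.Def_WeierstrassCurve_PeuRamifiee

/-!
# An integral model of `E[p]` in the peu ramifié case

At a multiplicative odd prime `p` with `p ∣ v_p(Δ)` the `p`-torsion has a model over the inertia
base: it is an extension of `ℤ/p` by `μ_p` given by a unit.
-/

set_option autoImplicit false

noncomputable section

namespace FLTAgent.Reduction.Peu

open WeierstrassCurve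
open WeierstrassCurve.Affine.Point (galoisRepModuleEnd galoisRepModuleEnd_apply)

local notation "Qbar" => AlgebraicClosure ℚ

variable {W : WeierstrassCurve ℤ} {p : ℕ} [hp : Fact p.Prime]

/-- The action of inertia on `E[p]`. -/
def torsInertia (W : WeierstrassCurve ℤ) (p : ℕ) (A : ValuationSubring Qbar) :
    inertiaRing A →* AddMonoid.End (TorsQ W p) :=
  FlatModel.inertiaAction
    (galoisRepModuleEnd (K := Qbar) ℚ (W.map (Int.castRingHom ℚ)).toAffine p) (inertiaLift A)

variable {A : ValuationSubring Qbar} (b : Module.Basis (Fin 2) (ZMod p) (TorsQ W p))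
  (ε : AddChar (ZMod p) Qbar) (x : Qbar)

/-- The unit attached to a point. -/
def chi (v : TorsQ W p) : Qbar :=
  x ^ (b.repr v 1).val * ε (b.repr v 0)

/-- The functions spanning the model. -/
def modelFun (ij : ZMod p × ZMod p) (v : TorsQ W p) : Qbar :=
  if b.repr v 1 = ij.1 then chi b ε x v ^ ij.2.val else 0

variable {b ε x}

lemma chi_pow_card (v : TorsQ W p) : chi b ε x v ^ p = (x ^ p) ^ (b.repr v 1).val := by
  rw [chi, mul_pow, addChar_pow_card, mul_one, ← pow_mul, ← pow_mul, mul_comm]

/-- The model of `E[p]`. -/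
theorem exists_isModel (hA : A.LiesOverPrime p) (h2 : p ≠ 2) (hΔ0 : W.Δ ≠ 0)
    (hbad : (p : ℤ) ∣ W.Δ) (hc₄ : ¬(p : ℤ) ∣ W.c₄) (hdiv : p ∣ padicValInt p W.Δ) :
    ∃ H : Submodule (FlatModel.baseRing A (inertiaRing A)) (TorsQ W p → Qbar),
      FlatModel.IsModel (torsInertia W p A) H := by
  classical
  obtain ⟨b, ε, x, a, c, hε, hx, hdata⟩ := exists_kummer_data hA h2 hΔ0 hbad hc₄ hdiv
  have hx0 : x ≠ 0 := fun h => by rw [h, map_zero] at hx; exact zero_ne_one hx
  -- `x ^ p` and its powers lie in the base
  have hbase : ∀ n : ℤ, (x ^ p) ^ n ∈ FlatModel.baseRing A (inertiaRing A) := fun n =>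
    ⟨mem_of_v_le_one (by rw [map_zpow₀, map_pow, hx, one_pow, one_zpow]), fun τ hτ => by
      obtain ⟨σ, hσ, rfl⟩ := hτ
      show σ ((x ^ p) ^ n) = (x ^ p) ^ n
      rw [map_zpow₀, map_pow, (hdata σ hσ).2.2.2, mul_pow, addChar_pow_card, one_mul]⟩
  set H := Submodule.span (FlatModel.baseRing A (inertiaRing A))
    (Set.range (modelFun b ε x)) with hH
  have hmem : ∀ ij, modelFun b ε x ij ∈ H := fun ij => Submodule.subset_span ⟨ij, rfl⟩
  have hsm : ∀ (n : ℤ) (f : TorsQ W p → Qbar), f ∈ H → (fun v => (x ^ p) ^ n * f v) ∈ H :=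
    fun n f hf => by
      have h := H.smul_mem (⟨_, hbase n⟩ : FlatModel.baseRing A (inertiaRing A)) hf
      exact h
  refine ⟨H, ⟨Submodule.fg_span (Set.finite_range _), ?_, ?_, ?_, ?_, ?_, ?_⟩⟩
  · have h1 : (1 : TorsQ W p → Qbar) = ∑ i, modelFun b ε x (i, 0) := by
      funext v
      rw [Pi.one_apply, Finset.sum_apply, Finset.sum_eq_single (b.repr v 1)]
      · simp [modelFun]
      · intro i _ hi; simp [modelFun, Ne.symm hi]
      · simp
    rw [h1]
    exact Submodule.sum_mem _ fun i _ => hmem _
  · have key : ∀ ij ij', modelFun b ε x ij * modelFun b ε x ij' ∈ H := by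
      rintro ⟨i, j⟩ ⟨i', j'⟩
      by_cases hii : i = i'
      · subst hii
        convert hsm ((i.val * ((j.val + j'.val) / p) : ℕ)) _ (hmem (i, j + j')) using 1
        funext v
        simp only [Pi.mul_apply, modelFun]
        by_cases hv : b.repr v 1 = i
        · rw [if_pos hv, if_pos hv, if_pos hv, zpow_natCast, pow_mul, ← hv, ← chi_pow_card,
            ← pow_mul, ← pow_add, ← pow_add, ZMod.val_add, Nat.div_add_mod]
        · rw [if_neg hv, if_neg hv, if_neg hv, mul_zero, mul_zero]
      · convert H.zero_mem using 1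
        funext v
        simp only [Pi.mul_apply, modelFun, Pi.zero_apply]
        by_cases hv : b.repr v 1 = i
        · rw [if_pos hv, if_neg fun h' => hii (hv.symm.trans h'), mul_zero]
        · rw [if_neg hv, zero_mul]
    intro f hf g hg
    induction hf using Submodule.span_induction with
    | mem f hf =>
      obtain ⟨ij, rfl⟩ := hf
      induction hg using Submodule.span_induction with
      | mem g hg => obtain ⟨ij', rfl⟩ := hg; exact key ij ij'
      | zero => rw [mul_zero]; exact H.zero_mem
      | add g g' _ _ hg hg' => rw [mul_add]; exact H.add_mem hg hg'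
      | smul t g _ hg => rw [mul_smul_comm]; exact H.smul_mem t hg
    | zero => rw [zero_mul]; exact H.zero_mem
    | add f f' _ _ hf hf' => rw [add_mul]; exact H.add_mem hf hf'
    | smul t f _ hf => rw [smul_mul_assoc]; exact H.smul_mem t hf
  · intro f hf v
    induction hf using Submodule.span_induction with
    | mem f hf =>
      obtain ⟨⟨i, j⟩, rfl⟩ := hf
      unfold modelFun
      split
      · exact pow_mem (mul_mem (pow_mem (mem_of_v_le_one hx.le) _)
          (mem_of_v_le_one (v_addChar _).le)) _
      · exact zero_mem A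
    | zero => exact zero_mem A
    | add f g _ _ hf hg => exact add_mem hf hg
    | smul t f _ hf => exact FlatModel.baseRing_smul_mem t hf
  · intro f hf
    induction hf using Submodule.span_induction with
    | mem f hf =>
      obtain ⟨⟨i, j⟩, rfl⟩ := hf
      intro τ v
      obtain ⟨σ, hσ, hτ⟩ := τ.2
      have hστ : inertiaLift A τ = σ := AlgEquiv.ext fun z => by
        rw [inertiaLift_apply, ← hτ]; rfl
      obtain ⟨hσε, hσ0, hσ1, hσx⟩ := hdata σ hσ
      have hv : σ • v = (b.repr v 0 * a σ + b.repr v 1 * c σ) • b 0 + b.repr v 1 • b 1 := by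
        have hvs : v = b.repr v 0 • b 0 + b.repr v 1 • b 1 := by
          conv_lhs => rw [← b.sum_repr v, Fin.sum_univ_two]
        conv_lhs => rw [hvs]
        rw [smul_add, smul_comm σ, smul_comm σ, hσ0, hσ1, smul_smul, smul_add, smul_smul,
          add_smul, add_assoc]
      have hr0 : b.repr (σ • v) 0 = b.repr v 0 * a σ + b.repr v 1 * c σ := by
        rw [hv]; simp
      have hr1 : b.repr (σ • v) 1 = b.repr v 1 := by
        rw [hv]; simp
      show modelFun b ε x (i, j) (galoisRepModuleEnd (K := Qbar) ℚ _ p (inertiaLift A τ) v) = _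
      rw [galoisRepModuleEnd_apply, hστ, ← hτ]
      show _ = σ (modelFun b ε x (i, j) v)
      simp only [modelFun, hr1]
      split
      · rw [map_pow]
        congr 1
        simp only [chi, hr0, hr1]
        rw [map_mul, map_pow, hσx, hσε, mul_pow, ← AddChar.map_nsmul_eq_pow, nsmul_eq_mul,
          ZMod.natCast_zmod_val, AddChar.map_add_eq_mul, mul_comm (b.repr v 0)]
        ring
      · rw [map_zero]
    | zero => intro τ v; exact (map_zero _).symm
    | add f g _ _ hf hg =>
      intro τ v
      rw [Pi.add_apply, Pi.add_apply, map_add, hf, hg]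
    | smul t f _ hf => exact FlatModel.isEquivariant_smul hf t
  · intro v w hvw
    have hs : b.repr v 1 = b.repr w 1 := by
      have h := hvw _ (hmem (b.repr v 1, 0))
      simp only [modelFun, ZMod.val_zero, pow_zero, if_true] at h
      by_contra hne
      rw [if_neg (fun h' => hne h'.symm)] at h
      exact one_ne_zero h
    have h := hvw _ (hmem (b.repr v 1, 1))
    simp only [modelFun, hs, if_true, ZMod.val_one, pow_one, chi] at h
    have he : ε (b.repr v 0 - b.repr w 0) = 1 := by
      rw [AddChar.map_sub_eq_div, mul_left_cancel₀ (pow_ne_zero _ hx0) h, div_self]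
      intro h0
      have := v_addChar (A := A) (ε := ε) (b.repr w 0)
      rw [h0, map_zero] at this
      exact zero_ne_one this
    refine b.repr.injective (Finsupp.ext fun k => ?_)
    fin_cases k
    · by_contra hne
      have hv := v_addChar_sub_one (A := A) (ε := ε) (sub_ne_zero.2 hne)
      erw [he, sub_self, map_zero] at hv
      exact hε (sub_eq_zero.1 ((map_eq_zero _).1 hv.symm))
    · exact hs
  · intro f hf
    induction hf using Submodule.span_induction with
    | mem f hf =>
      obtain ⟨⟨i, j⟩, rfl⟩ := hf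
      let e := Fintype.equivFin (ZMod p)
      let carry : ZMod p → ℕ := fun k => (k.val + (i - k).val) / p
      refine ⟨Fintype.card (ZMod p),
        fun m v => (x ^ p) ^ (-((carry (e.symm m) * j.val : ℕ) : ℤ)) * modelFun b ε x (e.symm m, j) v,
        fun m => modelFun b ε x (i - e.symm m, j), fun m => hsm _ _ (hmem _), fun m => hmem _,
        fun v w => ?_⟩
      rw [← Equiv.sum_comp e]
      simp only [Equiv.symm_apply_apply]
      rw [Finset.sum_eq_single (b.repr v 1)]
      · simp only [modelFun, map_add, Finsupp.add_apply, if_true]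
        by_cases hvw : b.repr v 1 + b.repr w 1 = i
        · have hw : b.repr w 1 = i - b.repr v 1 := eq_sub_of_add_eq' hvw
          rw [if_pos hvw, if_pos hw]
          have hk : chi b ε x v * chi b ε x w
              = chi b ε x (v + w) * (x ^ p) ^ carry (b.repr v 1) := by
            simp only [chi, carry, ← hw, map_add, Finsupp.add_apply, AddChar.map_add_eq_mul,
              ZMod.val_add]
            have hd := congrArg (x ^ ·) (Nat.mod_add_div ((b.repr v 1).val + (b.repr w 1).val) p)
            simp only [pow_add, pow_mul] at hd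
            linear_combination (-(ε (b.repr v 0) * ε (b.repr w 0))) * hd
          have hk' := congrArg (· ^ j.val) hk
          simp only [mul_pow] at hk'
          rw [zpow_neg, zpow_natCast, mul_assoc, hk', pow_mul, mul_comm (chi b ε x (v + w) ^ j.val),
            ← mul_assoc, inv_mul_cancel₀ (pow_ne_zero _ (pow_ne_zero _ (pow_ne_zero _ hx0))),
            one_mul]
        · rw [if_neg hvw, if_neg fun hw => hvw (by rw [hw]; exact add_sub_cancel _ _), mul_zero]
      · intro k _ hk
        simp [modelFun, Ne.symm hk]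
      · simp
    | zero => exact ⟨0, Fin.elim0, Fin.elim0, fun i => i.elim0, fun i => i.elim0, fun v w => by simp⟩
    | add f g _ _ hf hg =>
      obtain ⟨n, a₁, b₁, ha₁, hb₁, h₁⟩ := hf
      obtain ⟨m, a₂, b₂, ha₂, hb₂, h₂⟩ := hg
      refine ⟨n + m, Fin.append a₁ a₂, Fin.append b₁ b₂, fun i => ?_, fun i => ?_, fun v w => ?_⟩
      · induction i using Fin.addCases <;> simp [ha₁, ha₂]
      · induction i using Fin.addCases <;> simp [hb₁, hb₂]
      · rw [Pi.add_apply, h₁, h₂, Fin.sum_univ_add]
        simp
    | smul t f _ hf =>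
      obtain ⟨n, a₁, b₁, ha₁, hb₁, h₁⟩ := hf
      refine ⟨n, fun i => t • a₁ i, b₁, fun i => H.smul_mem t (ha₁ i), hb₁, fun v w => ?_⟩
      simp only [Pi.smul_apply, h₁, Finset.smul_sum, smul_mul_assoc]

omit hp in
/-- `IsPeuRamifieeAt` for an integral model. -/
lemma dvd_padicValInt_of_isPeuRamifiee (h : (W.map (Int.castRingHom ℚ)).IsPeuRamifieeAt p p) :
    p ∣ padicValInt p W.Δ := by
  rw [IsPeuRamifieeAt, map_Δ, eq_intCast, padicValRat.of_int] at h
  exact_mod_cast h

end FLTAgent.Reduction.Peu
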