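import Fermat.Agent.MazurP.Kummer
import Fermat.Agent.MazurP.LocalGood

/-!
# No model of `E[p]` at a très ramifié prime

At a multiplicative prime `p` with `p ∤ v_p(Δ)` the distance of a point of order `p` outside `E₀`
to the node has a valuation no tame constant has, while inertia fixing the roots of unity moves it
only as much as a point of `E₁`.  With the Kummer data of a model it would move exactly to first
order in the uniformiser.
-/

set_option autoImplicit false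

noncomputable section

namespace FLTAgent.Reduction.Peu

open WeierstrassCurve

local notation "Qbar" => AlgebraicClosure ℚ
local notation "Γℚ" => AlgebraicClosure ℚ ≃ₐ[ℚ] AlgebraicClosure ℚ

variable {W : WeierstrassCurve ℤ} {p : ℕ} [hp : Fact p.Prime] {A : ValuationSubring Qbar}

lemma eq_zero_of_addChar_eq_one {ε : AddChar (ZMod p) Qbar} (hε : ε 1 ≠ 1) {j : ZMod p}
    (h : ε j = 1) : j = 0 := by
  by_contra hj
  have h1 := v_addChar_sub_one (A := (⊤ : ValuationSubring Qbar)) (ε := ε) hj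
  rw [h, sub_self, map_zero, eq_comm, map_eq_zero, sub_eq_zero] at h1
  exact hε h1

/-- A point outside `E₀` killed by `p` is at distance a proper fractional power of `|p|` from the
node. -/
theorem exists_pow_distance {x₀ y₀ α r : Qbar} (hn : IsNode A (WQbar W) x₀ y₀ α)
    (h : IsNodalForm A (nodeChange x₀ y₀ • WQbar W) α r) (hA : A.LiesOverPrime p) (h2 : p ≠ 2)
    (hΔ0 : W.Δ ≠ 0) (hbad : (p : ℤ) ∣ W.Δ) (hndiv : ¬ p ∣ padicValInt p W.Δ)
    {R : (WQbar W).toAffine.Point} (hR : p • R = 0)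
    (hR0 : R ∉ zeroSubgroup (integralAt W A)) {x y : Qbar}
    {hxy : (WQbar W).toAffine.Nonsingular x y} (he : R = .some _ _ hxy) :
    ∃ M : ℕ, ¬ p ∣ M ∧ A.valuation (x - x₀) ^ p = A.valuation (p : Qbar) ^ M := by
  obtain ⟨a, b, hab, e, ha, ha1, hc⟩ := exists_outside hn h (hp.out.odd_of_ne_two h2) hR hR0
  rw [he, Affine.Point.some.injEq] at e
  obtain ⟨rfl, rfl⟩ := e
  have hg0 : A.valuation (x - x₀) ≠ 0 := (h.r_pos.trans ha).ne'
  have hpc := compW_pow_eq_one h hR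
  have hcp : h.cls (A.valuation (x - x₀)) ^ p = 1 := by
    rcases hc with hc | hc <;> rw [hc] at hpc
    · exact hpc
    · rwa [inv_pow, inv_eq_one] at hpc
  rw [h.cls_mk0 hg0, ← QuotientGroup.mk_pow, QuotientGroup.eq_one_iff,
    Subgroup.mem_zpowers_iff] at hcp
  obtain ⟨k, hk⟩ := hcp
  have h1 := congrArg Units.val hk
  simp only [IsNodalForm.period, Units.val_zpow_eq_zpow_val, Units.val_pow_eq_pow_val,
    Units.val_mk0] at h1
  set n := padicValInt p W.Δ with hndef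
  have hD : A.valuation r ^ 2 = A.valuation (p : Qbar) ^ n := by
    rw [← h.v_Δ, variableChange_Δ, nodeChange, inv_one, Units.val_one, one_pow, one_mul,
      WQbar_Δ, v_intCast_eq_pow hA hp.out hΔ0]
  have hr1 : A.valuation r ^ 2 < 1 := by
    rw [hD]
    refine pow_lt_one₀ zero_le (MazurP.v_p_lt_one hA) fun h0 => hndiv ?_
    rw [h0]; exact dvd_zero _
  have hr0 : 0 < A.valuation r ^ 2 := pow_pos h.r_pos 2
  have hk1 : 0 < k := by
    by_contra hle
    have := one_le_zpow_of_nonpos₀ hr0 hr1.le (n := k) (by omega)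
    rw [h1] at this
    exact not_lt.2 this (pow_lt_one₀ zero_le ha1 hp.out.ne_zero)
  have hk2 : 2 * k < p := by
    by_contra hge
    push Not at hge
    have hlt : (A.valuation r ^ 2) ^ p < (A.valuation (x - x₀) ^ p) ^ 2 := by
      rw [← pow_mul (A.valuation (x - x₀)), mul_comm p 2, pow_mul]
      exact pow_lt_pow_left₀ (pow_lt_pow_left₀ ha zero_le two_ne_zero) zero_le hp.out.ne_zero
    rw [← h1, ← zpow_natCast (A.valuation r ^ 2) p, ← zpow_natCast ((A.valuation r ^ 2) ^ k) 2,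
      ← zpow_mul] at hlt
    have hanti := zpow_right_anti₀ hr0 hr1.le (show (p : ℤ) ≤ k * (2 : ℕ) by push_cast; linarith)
    simp only at hanti
    exact not_le.2 hlt hanti
  refine ⟨n * k.toNat, fun hd => ?_, ?_⟩
  · rcases hp.out.dvd_mul.1 hd with hd | hd
    · exact hndiv hd
    · have := Nat.le_of_dvd (by omega) hd
      omega
  · rw [← h1, hD, ← zpow_natCast _ n, ← zpow_mul, ← zpow_natCast]
    congr 1
    rw [Nat.cast_mul, Int.toNat_of_nonneg hk1.le]

set_option maxHeartbeats 800000 in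
-- the points of several curves appear
/-- `E[p]` has no model at a multiplicative `p` with `p ∤ v_p(Δ)`. -/
theorem false_of_isModel_of_not_dvd (hA : A.LiesOverPrime p) (h2 : p ≠ 2) (hΔ0 : W.Δ ≠ 0)
    (hbad : (p : ℤ) ∣ W.Δ) (hc₄ : ¬(p : ℤ) ∣ W.c₄) (hndiv : ¬ p ∣ padicValInt p W.Δ)
    {H : Submodule (FlatModel.baseRing A (inertiaRing A)) (TorsQ W p → Qbar)}
    (hH : FlatModel.IsModel (torsInertia W p A) H) : False := by
  classical
  have hodd : Odd p := hp.out.odd_of_ne_two h2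
  have := isElliptic_rat hΔ0
  have : ((W.map (Int.castRingHom ℚ))⁄Qbar).IsElliptic :=
    WeilPairing.isElliptic_qbar (W.map (Int.castRingHom ℚ))
  have hW := integralAt W A
  obtain ⟨X₁, Y₁, hXY₁, hQp, hX₁A, -⟩ := exists_small_point hA hp.out h2 hΔ0 hc₄
  obtain ⟨P₀, hP₀, hP₀0⟩ :=
    exists_torsion_not_mem_zeroSubgroup_qbar hA hp.out hp.out h2 hΔ0 hbad hc₄
  have mem : ∀ Q : (WQbar W).toAffine.Point, p • Q = 0 → Q ∈ TorsQ W p := fun Q hQ => by
    rw [Submodule.mem_torsionBy_iff, natCast_zsmul]; exact hQ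
  set v : TorsQ W p := ⟨_, mem _ hQp⟩ with hv
  set R₀ : TorsQ W p := ⟨P₀, mem P₀ hP₀⟩ with hR₀
  have hv0 : v ≠ 0 := fun h => Affine.Point.some_ne_zero hXY₁ (congrArg Subtype.val h)
  obtain ⟨-, hmem⟩ := exists_basis_of_line hΔ0 (oneSubgroup hW) (P₁ := v) (P₀ := R₀)
    hv0 hX₁A (fun h => hP₀0 (oneSubgroup_le hW h))
  have hlinev : ∀ σ ∈ A.inertiaSubgroupIn ℚ, σ • v ∈ Submodule.span (ZMod p) {v} :=
    fun σ hσ => (hmem _).2 (smul_mem_oneSubgroup (inertia_le_decomposition hσ)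
      ((hmem v).1 (Submodule.mem_span_singleton_self _)))
  have hshift : ∀ σ ∈ A.inertiaSubgroupIn ℚ, ∀ w : TorsQ W p,
      σ • w - w ∈ Submodule.span (ZMod p) {v} := fun σ hσ w => (hmem _).2
    (mem_oneSubgroup_of_mem_zeroSubgroup hA hp.out h2 hΔ0 hbad hc₄ (nsmul_coe_torsionBy _)
      (smul_sub_mem_zeroSubgroup hA hp.out hΔ0 hbad hc₄ hσ _))
  obtain ⟨b, ε, x, a, c, hε, hx, hdata⟩ :=
    MazurP.Local.exists_kummer_data_of_isModel hA h2 hΔ0 hH ⟨v, hv0, hlinev⟩
  have hkum : ∀ σ ∈ A.inertiaSubgroupIn ℚ, ∃ a' c' : ZMod p,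
      (∀ j, σ (ε j) = ε (a' * j)) ∧ σ x = ε c' * x := fun σ hσ =>
    ⟨a σ, c σ, (hdata σ hσ).1, (hdata σ hσ).2.2.2⟩
  have hcyc : ∀ σ ∈ A.inertiaSubgroupIn ℚ, ∃ a' : ZMod p, ∀ j, σ (ε j) = ε (a' * j) :=
    fun σ hσ => ⟨a σ, (hdata σ hσ).1⟩
  have hxne : x ≠ 0 := fun h => zero_ne_one (by rw [← hx, h, map_zero])
  have hεinj : Function.Injective ε := fun i j hij => sub_eq_zero.1 (eq_zero_of_addChar_eq_one hε (by
    rw [AddChar.map_sub_eq_div, hij, div_self]
    exact fun h0 => zero_ne_one (α := A.ValueGroup) (by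
      rw [← v_addChar (A := A) (ε := ε) j, h0, map_zero])))
  have ha1 : ∀ σ ∈ A.inertiaSubgroupIn ℚ, σ (ε 1) = ε 1 → a σ = 1 := fun σ hσ hζ =>
    hεinj (by rw [← mul_one (a σ), ← (hdata σ hσ).1, hζ])
  -- the stabiliser of `ζ` and `x` fixes `E[p]`
  have hstab : ∀ σ ∈ A.inertiaSubgroupIn ℚ, σ (ε 1) = ε 1 → σ x = x →
      ∀ w : TorsQ W p, σ • w = w := by
    intro σ hσ hζ hσx w
    have hc0 : c σ = 0 := hεinj (by
      rw [AddChar.map_zero_eq_one]
      refine mul_right_cancel₀ hxne ?_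
      rw [one_mul, ← (hdata σ hσ).2.2.2, hσx])
    have hb : ∀ i, σ • b i = b i := by
      intro i
      fin_cases i
      · exact ((hdata σ hσ).2.1).trans (by rw [ha1 σ hσ hζ, one_smul]; rfl)
      · exact ((hdata σ hσ).2.2.1).trans (by rw [hc0, zero_smul, zero_add]; rfl)
    rw [← b.sum_repr w, Finset.smul_sum]
    exact Finset.sum_congr rfl fun i _ => by rw [smul_comm, hb]
  -- elements fixing `ζ` fix `v`
  have hfixv : ∀ σ ∈ A.inertiaSubgroupIn ℚ, σ (ε 1) = ε 1 → σ • v = v := by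
    intro σ hσ hζ
    obtain ⟨s, hs⟩ := Submodule.mem_span_singleton.1 (hlinev σ hσ)
    have h0 : σ • b 0 = b 0 := by rw [(hdata σ hσ).2.1, ha1 σ hσ hζ, one_smul]
    have h1 : σ • (b 1) = c σ • b 0 + b 1 := (hdata σ hσ).2.2.1
    have hsq : ∀ w : TorsQ W p, σ • (σ • w - w) - (σ • w - w) = 0 := by
      intro w
      rw [← b.sum_repr w, Fin.sum_univ_two]
      simp only [smul_add, smul_comm σ (_ : ZMod p), h0, h1, smul_sub]
      abel
    have h := hsq v
    rw [← hs, show s • v - v = (s - 1) • v by rw [sub_smul, one_smul], smul_comm, ← hs, smul_smul,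
      ← sub_smul, smul_eq_zero] at h
    have hs1 : s = 1 := by
      rcases h with h | h
      · have h' : (s - 1) ^ 2 = 0 := by linear_combination h
        exact sub_eq_zero.1 (pow_eq_zero_iff two_ne_zero |>.1 h')
      · exact absurd h hv0
    rw [← hs, hs1, one_smul]
  -- the point outside `E₀`
  obtain ⟨x₀, y₀, α, r, hn, h⟩ := exists_nodal hA hp.out hΔ0 hbad hc₄
  obtain ⟨xR, yR, hxyR, hR, hrR, hR1, -⟩ := exists_outside hn h hodd hP₀ hP₀0
  obtain ⟨M, hM, hvM⟩ := exists_pow_distance hn h hA h2 hΔ0 hbad hndiv hP₀ hP₀0 hR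
  set z := xR - x₀ with hzdef
  have hz0 : z ≠ 0 := fun h0 => by rw [h0, map_zero] at hrR; exact not_lt_zero' hrR
  have hσz : ∀ σ ∈ A.inertiaSubgroupIn ℚ, σ z = xCoord (σ • P₀) - x₀ := fun σ hσ => by
    rw [hzdef, map_sub, (node_fixed hn hσ).1, xCoord_smul, hR]; rfl
  set τ := (p : Qbar) ^ (M / p) / z with hτdef
  have hτval : A.valuation τ ^ p * A.valuation (p : Qbar) ^ (M % p) = 1 := by
    rw [hτdef, map_div₀, map_pow, div_pow, hvM, div_mul_eq_mul_div, ← pow_mul, ← pow_add,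
      Nat.div_add_mod' M p, div_self (pow_ne_zero _ (MazurP.v_p_pos).ne')]
  have hβ : 0 < M % p := Nat.pos_of_ne_zero fun h0 => hM (Nat.dvd_of_mod_eq_zero h0)
  have hβp : M % p < p := Nat.mod_lt _ hp.out.pos
  have hmemK : ∀ u : Qbar, (∀ σ ∈ A.inertiaSubgroupIn ℚ, σ (ε 1) = ε 1 → σ u = u →
      ∀ w : TorsQ W p, σ • w = w) → τ ∈ MazurP.pairField A (ε 1) u := fun u hu =>
    MazurP.mem_pairField.2 fun σ hσ => by
      have h0 : σ • R₀ = R₀ := hu σ hσ.1 hσ.2.1 hσ.2.2 R₀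
      rw [hτdef, map_div₀, map_pow, map_natCast, hσz σ hσ.1,
        show σ • P₀ = P₀ from congrArg Subtype.val h0, hR]
      rfl
  by_cases hmv : ∀ σ ∈ A.inertiaSubgroupIn ℚ, σ (ε 1) = ε 1 → σ x = x
  · exact MazurP.tame_none hA hε hcyc
      (hmemK (ε 1) fun σ hσ hζ _ => hstab σ hσ hζ (hmv σ hσ hζ)) hβ hβp hτval
  push Not at hmv
  obtain ⟨σ, hσ, hζ, hσx⟩ := hmv
  obtain ⟨ϖ, -, hϖ0, hϖn, -, hsq, -, -, hmove⟩ :=
    MazurP.exists_unif hA hε h2 hx hkum hσ hζ hσx
  obtain ⟨a', ha', hστ⟩ := hmove τ (hmemK x hstab) _ hβ hβp hτval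
  -- the motion is exactly of first order
  have hσz0 : σ z ≠ 0 := (map_ne_zero σ).2 hz0
  have hvσz : A.valuation (σ z) = A.valuation z :=
    v_map_eq_qbar (inertia_le_decomposition hσ) z
  have hzz : z = σ z * (1 + ϖ * a') := by
    rw [hτdef, map_div₀, map_pow, map_natCast] at hστ
    have hp0 : (p : Qbar) ^ (M / p) ≠ 0 := pow_ne_zero _ (Nat.cast_ne_zero.2 hp.out.ne_zero)
    field_simp at hστ
    linear_combination hστ
  have hfirst : A.valuation (σ z - z) = A.valuation z * A.valuation ϖ := by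
    conv_lhs => rw [show σ z - z = -(σ z * (ϖ * a')) by linear_combination -hzz]
    rw [Valuation.map_neg, map_mul, map_mul, ha', mul_one, hvσz]
  -- halve the translation
  set Q : TorsQ W p := σ • R₀ - R₀ with hQ
  obtain ⟨m, hm⟩ := hodd
  set Q' : TorsQ W p := (m + 1) • Q with hQ'
  have hQQ : Q' + Q' = Q := by
    rw [hQ', ← two_nsmul, ← mul_nsmul', show 2 * (m + 1) = p + 1 by omega, succ_nsmul]
    rw [show p • Q = 0 from Subtype.ext (nsmul_coe_torsionBy Q), zero_add]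
  have hQ'1 : Q' ∈ Submodule.span (ZMod p) {v} := nsmul_mem (hshift σ hσ R₀) _
  have hQ'fix : ∀ τ' ∈ A.inertiaSubgroupIn ℚ, τ' (ε 1) = ε 1 → τ' • Q' = Q' := fun τ' hτ' hζ' => by
    obtain ⟨s, hs⟩ := Submodule.mem_span_singleton.1 hQ'1
    rw [← hs, smul_comm, hfixv τ' hτ' hζ']
  set R' : TorsQ W p := R₀ + Q' with hR'
  have hR'0 : (R' : (WQbar W).toAffine.Point) - P₀ ∈ zeroSubgroup hW := by
    rw [hR', Submodule.coe_add, add_sub_cancel_left]
    exact oneSubgroup_le hW ((hmem _).1 hQ'1)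
  have hR'out : (R' : (WQbar W).toAffine.Point) ∉ zeroSubgroup hW := fun hc =>
    hP₀0 (sub_sub_cancel (R' : (WQbar W).toAffine.Point) P₀ ▸ sub_mem hc hR'0)
  obtain ⟨x', y', hxy', hR'e, hr', hr'1, -⟩ :=
    exists_outside hn h (hp.out.odd_of_ne_two h2) (nsmul_coe_torsionBy R') hR'out
  have hvz : A.valuation (x' - x₀) = A.valuation z :=
    valuation_congr hn h (hp.out.odd_of_ne_two h2) hP₀ (nsmul_coe_torsionBy R') hP₀0 hR'0 hR hR'e
  have hσR : (R' : (WQbar W).toAffine.Point) + (Q' : (WQbar W).toAffine.Point) = σ • P₀ := by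
    have : R' + Q' = σ • R₀ := by
      rw [hR', add_assoc, hQQ, hQ, add_sub_cancel]
    exact congrArg Subtype.val this
  have hRR : (R' : (WQbar W).toAffine.Point) - (Q' : (WQbar W).toAffine.Point) = P₀ := by
    rw [hR', Submodule.coe_add, add_sub_cancel_right]
  rcases hQe : (Q' : (WQbar W).toAffine.Point) with _ | ⟨X, Y, hXY⟩
  · have hQ0 : σ • P₀ = P₀ := by
      rw [← hσR, hQe]
      conv_rhs => rw [← hRR, hQe]
      show _ + 0 = _ - 0
      rw [add_zero, sub_zero]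
    rw [hσz σ hσ, hQ0, hR, show xCoord (Affine.Point.some _ _ hxyR) = xR from rfl, ← hzdef,
      sub_self, map_zero, eq_comm, mul_eq_zero, Valuation.zero_iff, Valuation.zero_iff] at hfirst
    exact hfirst.elim hz0 hϖ0
  have hXA : X ∉ A := by
    have := (hmem _).1 hQ'1
    rw [hQe] at this
    exact this
  obtain ⟨x₃, y₃, hxy₃, he₃⟩ : ∃ x₃ y₃, ∃ h₃ : (WQbar W).toAffine.Nonsingular x₃ y₃,
      σ • P₀ = .some _ _ h₃ := by
    rw [hR, smul_some]; exact ⟨_, _, _, rfl⟩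
  have hx₃ : x₃ = σ xR := by
    have := congrArg (xCoord (W := W)) he₃
    rw [xCoord_smul, hR] at this
    exact this.symm
  have hdist := v_sq_sub hn h hA hp.out h2 hr' hr'1 hXA
    (h₃ := hxy₃) (h₄ := hxyR) (by rw [← hR'e, ← hQe, hσR, he₃]) (by rw [← hR'e, ← hQe, hRR, hR])
  rw [hvz, hx₃, show σ xR - xR = σ z - z by
    rw [hzdef, map_sub, (node_fixed hn hσ).1]; ring, hfirst, mul_pow, mul_assoc] at hdist
  have hvX : A.valuation ϖ ^ 2 * A.valuation X = 1 := by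
    refine mul_left_cancel₀ (pow_ne_zero 2 ((Valuation.ne_zero_iff A.valuation).2 hz0)) ?_
    rw [hdist, mul_one]
  -- the size of the formal parameter
  obtain ⟨hY2, -⟩ := v_y_of_x_not_mem hW hXY.1 hXA
  have hXv : A.valuation X ≠ 0 := (zero_lt_one.trans (one_lt_v_iff.2 hXA)).ne'
  set u := X / Y with hu
  have hYv : A.valuation Y ≠ 0 := fun h0 => by
    rw [h0, zero_pow two_ne_zero] at hY2
    exact pow_ne_zero 3 hXv hY2.symm
  have hu2 : A.valuation u ^ 2 = A.valuation ϖ ^ 2 := by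
    refine mul_right_cancel₀ hXv ?_
    rw [hvX, hu, map_div₀, div_pow, hY2, div_mul_eq_mul_div, ← pow_succ, div_self]
    exact pow_ne_zero 3 hXv
  have huϖ : A.valuation u = A.valuation ϖ := (pow_left_inj₀ zero_le zero_le two_ne_zero).1 hu2
  have huK : u ∈ MazurP.pairField A (ε 1) (ε 1) := MazurP.mem_pairField.2 fun τ' hτ' => by
    have hfx : τ' • (Q' : (WQbar W).toAffine.Point) = Q' :=
      congrArg Subtype.val (hQ'fix τ' hτ'.1 hτ'.2.1)
    rw [hQe, smul_some, Affine.Point.some.injEq] at hfx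
    rw [hu, map_div₀, hfx.1, hfx.2]
  have hu0 : u ≠ 0 := fun h0 => (map_ne_zero _).2 hϖ0 (by rw [← huϖ, h0, map_zero])
  obtain ⟨j, hj⟩ := MazurP.tame_zpow hA hε hcyc huK hu0
  have hlam := MazurP.v_lam_lt_one hA hε
  have hlam0 := MazurP.v_lam_pos (A := A) hε
  have hϖ1 : A.valuation ϖ < 1 := A.mem_nonunits_iff.1 hϖn
  have hj1 : 1 ≤ j := by
    by_contra hlt
    have := one_le_zpow_of_nonpos₀ hlam0 hlam.le (n := j) (by omega)
    rw [← hj, huϖ] at this
    exact not_lt.2 this hϖ1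
  have hle : A.valuation ϖ ≤ A.valuation (ε 1 - 1) := by
    rw [← huϖ, hj]
    simpa using zpow_right_anti₀ hlam0 hlam.le hj1
  have hle2 : A.valuation (ε 1 - 1) ≤ A.valuation ϖ ^ 2 := by
    have := (A.valuation_le_one_iff _).2 hsq
    rwa [map_div₀, map_pow, div_le_one₀ (pow_pos (zero_lt_iff.2 ((map_ne_zero _).2 hϖ0)) 2)] at this
  exact lt_irrefl _ ((hle.trans hle2).trans_lt
    (pow_lt_self_of_lt_one₀ (zero_lt_iff.2 ((map_ne_zero _).2 hϖ0)) hϖ1 one_lt_two))

end FLTAgent.Reduction.Peu
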